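-- The congruence subgroup Gamma0(N) is finitely generated (Schreier's lemma).
import Mathlib

set_option autoImplicit false

open scoped MatrixGroups

namespace Fermat.Agent.S22.Alt88

/-- `SL(2, ℤ)` is finitely generated (by `S` and `T`). -/
theorem sl2Z_fg : Group.FG SL(2, ℤ) := by
  rw [Group.fg_def]
  refine ⟨{ModularGroup.S, ModularGroup.T}, ?_⟩
  rw [Finset.coe_insert, Finset.coe_singleton]
  exact SpecialLinearGroup.SL2Z_generators

/-- `Gamma0 N` is a finitely generated group. -/
theorem gamma0_fg (N : ℕ) [NeZero N] : Group.FG (CongruenceSubgroup.Gamma0 N) := by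
  have : Group.FG SL(2, ℤ) := sl2Z_fg
  exact Subgroup.fg_of_index_ne_zero _

/-- Finite generation of `Gamma0 N` in a usable form: a finite set of elements of `Gamma0 N`
whose closure in `SL(2, ℤ)` is `Gamma0 N`. -/
theorem exists_finset_closure_eq_gamma0 (N : ℕ) [NeZero N] :
    ∃ s : Finset SL(2, ℤ), Subgroup.closure (s : Set SL(2, ℤ)) = CongruenceSubgroup.Gamma0 N := by
  have h := gamma0_fg N
  rw [Group.fg_iff_subgroup_fg] at h
  exact h

/-- The image of `Gamma0 N` in `GL(2, ℝ)` is the closure of a finite set. -/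
theorem exists_finset_closure_eq_gamma0_GL (N : ℕ) [NeZero N] :
    ∃ s : Finset (GL (Fin 2) ℝ), Subgroup.closure (s : Set (GL (Fin 2) ℝ)) =
      (CongruenceSubgroup.Gamma0 N).map (Matrix.SpecialLinearGroup.mapGL ℝ) := by
  classical
  obtain ⟨s, hs⟩ := exists_finset_closure_eq_gamma0 N
  refine ⟨s.image (Matrix.SpecialLinearGroup.mapGL ℝ), ?_⟩
  rw [Finset.coe_image, ← MonoidHom.map_closure, hs]

end Fermat.Agent.S22.Alt88
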