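-- Abstract glue for S22: a finitely generated, separating, stable lattice of functionals
-- forces the generated algebra of endomorphisms to be a finite Z-module.
import Fermat.Statements.S22

set_option autoImplicit false

namespace Fermat.Agent.S22.Alt88

section Abstract

variable {V : Type*} [AddCommGroup V] [Module ℂ V]

/-- Stability of a lattice of functionals under a set of endomorphisms extends to the
generated `ℤ`-algebra. -/
theorem comp_mem_of_mem_adjoin (gens : Set (Module.End ℂ V))
    (Lam : Submodule ℤ (Module.Dual ℂ V))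
    (hstab : ∀ T ∈ gens, ∀ lam ∈ Lam, lam.comp T ∈ Lam)
    {t : Module.End ℂ V} (ht : t ∈ Algebra.adjoin ℤ gens) :
    ∀ lam ∈ Lam, lam.comp t ∈ Lam := by
  induction ht using Algebra.adjoin_induction with
  | mem T hT => exact hstab T hT
  | algebraMap n =>
    intro lam hlam
    have : lam.comp (algebraMap ℤ (Module.End ℂ V) n) = n • lam := by
      ext v
      simp
    rw [this]
    exact Lam.smul_mem n hlam
  | add a b _ _ iha ihb =>
    intro lam hlam
    have : lam.comp (a + b) = lam.comp a + lam.comp b := by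
      ext v
      simp
    rw [this]
    exact Lam.add_mem (iha lam hlam) (ihb lam hlam)
  | mul a b _ _ iha ihb =>
    intro lam hlam
    have : lam.comp (a * b) = (lam.comp a).comp b := by
      ext v
      simp
    rw [this]
    exact ihb _ (iha lam hlam)

/-- The `ℤ`-linear map sending an element of the generated algebra to precomposition on the
lattice of functionals. -/
noncomputable def precompLattice (gens : Set (Module.End ℂ V))
    (Lam : Submodule ℤ (Module.Dual ℂ V))
    (hstab : ∀ T ∈ gens, ∀ lam ∈ Lam, lam.comp T ∈ Lam) :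
    Algebra.adjoin ℤ gens →ₗ[ℤ] (Lam →ₗ[ℤ] Lam) where
  toFun t :=
    { toFun := fun lam => ⟨(lam : Module.Dual ℂ V).comp (t : Module.End ℂ V),
        comp_mem_of_mem_adjoin gens Lam hstab t.2 lam.1 lam.2⟩
      map_add' := fun a b => Subtype.ext (by ext v; simp)
      map_smul' := fun c a => Subtype.ext (by ext v; simp) }
  map_add' t t' := by
    apply LinearMap.ext
    intro lam
    apply Subtype.ext
    ext v
    simp
  map_smul' c t := by
    apply LinearMap.ext
    intro lam
    apply Subtype.ext
    ext v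
    simp

theorem precompLattice_apply_apply (gens : Set (Module.End ℂ V))
    (Lam : Submodule ℤ (Module.Dual ℂ V))
    (hstab : ∀ T ∈ gens, ∀ lam ∈ Lam, lam.comp T ∈ Lam)
    (t : Algebra.adjoin ℤ gens) (lam : Lam) (v : V) :
    ((precompLattice gens Lam hstab t lam : Lam) : Module.Dual ℂ V) v
      = (lam : Module.Dual ℂ V) ((t : Module.End ℂ V) v) := rfl

theorem precompLattice_injective (gens : Set (Module.End ℂ V))
    (Lam : Submodule ℤ (Module.Dual ℂ V))
    (hstab : ∀ T ∈ gens, ∀ lam ∈ Lam, lam.comp T ∈ Lam)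
    (hsep : ∀ v : V, (∀ lam ∈ Lam, lam v = 0) → v = 0) :
    Function.Injective (precompLattice gens Lam hstab) := by
  rw [← LinearMap.ker_eq_bot, LinearMap.ker_eq_bot']
  intro t ht
  apply Subtype.ext
  apply LinearMap.ext
  intro v
  apply hsep
  intro lam hlam
  have h1 := precompLattice_apply_apply gens Lam hstab t ⟨lam, hlam⟩ v
  rw [ht] at h1
  simpa using h1.symm

/-- **Abstract glue.** If a finitely generated `ℤ`-lattice of functionals on `V` separates
the points of `V` and is stable under precomposition with a set `gens` of endomorphisms,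
then the `ℤ`-algebra generated by `gens` is a finite `ℤ`-module. -/
theorem finite_adjoin_of_stable_lattice (gens : Set (Module.End ℂ V))
    (Lam : Submodule ℤ (Module.Dual ℂ V)) (hfg : Lam.FG)
    (hsep : ∀ v : V, (∀ lam ∈ Lam, lam v = 0) → v = 0)
    (hstab : ∀ T ∈ gens, ∀ lam ∈ Lam, lam.comp T ∈ Lam) :
    Module.Finite ℤ (Algebra.adjoin ℤ gens) := by
  have h1 : Module.Finite ℤ Lam := Module.Finite.iff_fg.2 hfg
  have h2 : Module.Free ℤ Lam := Module.free_of_finite_type_torsion_free'
  have h3 : Module.Finite ℤ (Lam →ₗ[ℤ] Lam) := Module.Finite.linearMap ℤ ℤ Lam Lam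
  exact Module.Finite.of_injective (precompLattice gens Lam hstab)
    (precompLattice_injective gens Lam hstab hsep)

end Abstract

section Hecke

open CuspForm

/-- **Glue for S22.** A finitely generated separating lattice of functionals on the space of
cusp forms, stable under all `T_ℓ` (`ℓ ∤ N`) and `U_q` (`q ∣ N`), makes the Hecke algebra a
finite `ℤ`-module. -/
theorem heckeAlgebra_finite_of_stable_lattice (N : ℕ) [NeZero N] (k : ℤ) (S : Set ℕ)
    (Lam : Submodule ℤ (Module.Dual ℂ (CuspForm (CongruenceSubgroup.Gamma0 N) k)))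
    (hfg : Lam.FG)
    (hsep : ∀ f : CuspForm (CongruenceSubgroup.Gamma0 N) k, (∀ lam ∈ Lam, lam f = 0) → f = 0)
    (hT : ∀ (l : ℕ) (hl : l.Prime) (hlN : ¬ l ∣ N), ∀ lam ∈ Lam,
      lam.comp (CuspForm.heckeTLin k hl hlN) ∈ Lam)
    (hU : ∀ (q : ℕ) (hqN : q ∣ N), q.Prime → ∀ lam ∈ Lam,
      lam.comp (CuspForm.heckeULin k hqN) ∈ Lam) :
    Module.Finite ℤ (CuspForm.heckeAlgebra N k S) := by
  refine finite_adjoin_of_stable_lattice (CuspForm.heckeGenerators N k S) Lam hfg hsep ?_
  rintro T (⟨l, hl, hlN, -, rfl⟩ | ⟨q, hqN, hq, -, rfl⟩) lam hlam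
  · exact hT l hl hlN lam hlam
  · exact hU q hqN hq lam hlam

end Hecke

end Fermat.Agent.S22.Alt88
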