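import Mathlib

/-!
Primitives of periodic holomorphic functions on the upper half plane that vanish at `i∞`.
-/

set_option autoImplicit false

namespace Fermat.Agent.S22.Alt88

open Complex Filter Function Topology Set Metric Asymptotics
open UpperHalfPlane hiding I
open scoped Real

local notation "I∞" => comap Complex.im atTop

local notation "𝕢" => Function.Periodic.qParam

/-- `qParam` is periodic. -/
lemma qParam_add_period {h : ℝ} (hh : h ≠ 0) (z : ℂ) : 𝕢 h (z + h) = 𝕢 h z := by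
  have hh' : (h : ℂ) ≠ 0 := by exact_mod_cast hh
  unfold Function.Periodic.qParam
  have : 2 * (π : ℂ) * I * (z + h) / h = 2 * π * I * z / h + 2 * π * I := by
    field_simp
  rw [this, Complex.exp_add, Complex.exp_two_pi_mul_I, mul_one]

lemma hasDerivAt_qParam (h : ℝ) (z : ℂ) :
    HasDerivAt (𝕢 h) (𝕢 h z * (2 * π * I / h)) z := by
  unfold Function.Periodic.qParam
  simpa only [id_eq, mul_one] using (((hasDerivAt_id z).const_mul _).div_const _).cexp

lemma eventually_mem_upperHalfPlaneSet : ∀ᶠ z in I∞, z ∈ upperHalfPlaneSet := by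
  have : ∀ᶠ y : ℝ in atTop, 0 < y := eventually_gt_atTop 0
  exact (tendsto_comap.eventually this)

/-- A periodic holomorphic function on the upper half plane tending to `0` at `i∞` has a periodic
holomorphic primitive which decays exponentially at `i∞`. -/
theorem exists_periodic_primitive {h : ℝ} (hh : 0 < h) {φ : ℂ → ℂ}
    (hper : Periodic φ h) (hdiff : DifferentiableOn ℂ φ upperHalfPlaneSet)
    (hzero : ZeroAtFilter I∞ φ) :
    ∃ Φ : ℂ → ℂ, Periodic Φ h ∧ (∀ z ∈ upperHalfPlaneSet, HasDerivAt Φ (φ z) z) ∧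
      Φ =O[I∞] (fun z => Real.exp (-2 * π * z.im / h)) := by
  have hol : ∀ᶠ z in I∞, DifferentiableAt ℂ φ z := by
    filter_upwards [eventually_mem_upperHalfPlaneSet] with z hz
    exact hdiff.differentiableAt (isOpen_upperHalfPlaneSet.mem_nhds hz)
  set c := Function.Periodic.cuspFunction h φ with hc
  have hc0 : c 0 = 0 := Function.Periodic.cuspFunction_zero_of_zero_at_inf hh hzero
  have hcdiff : DifferentiableOn ℂ c (ball 0 1) := by
    intro q hq
    refine DifferentiableAt.differentiableWithinAt ?_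
    rcases eq_or_ne q 0 with rfl | hq0
    · exact Function.Periodic.differentiableAt_cuspFunction_zero hh hper hol
        hzero.boundedAtFilter
    · have hq1 : ‖q‖ < 1 := by simpa using hq
      have him : 0 < (Function.Periodic.invQParam h q).im := by
        rw [Function.Periodic.im_invQParam]
        have h1 : Real.log ‖q‖ < 0 := Real.log_neg (norm_pos_iff.mpr hq0) hq1
        have h2 : -h / (2 * π) < 0 := by
          apply div_neg_of_neg_of_pos (by linarith) (by positivity)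
        exact mul_pos_of_neg_of_neg h2 h1
      have := Function.Periodic.differentiableAt_cuspFunction hh.ne' hper
        (hdiff.differentiableAt (isOpen_upperHalfPlaneSet.mem_nhds him))
      rwa [Function.Periodic.qParam_right_inv hh.ne' hq0] at this
  have hc1diff : DifferentiableOn ℂ (dslope c 0) (ball 0 1) :=
    (differentiableOn_dslope (ball_mem_nhds 0 one_pos)).mpr hcdiff
  obtain ⟨C, hC0, hC⟩ := (hc1diff.isExactOn_ball).with_val_at 0 0
  have hq_mem : ∀ z ∈ upperHalfPlaneSet, 𝕢 h z ∈ ball (0 : ℂ) 1 := by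
    intro z hz
    simpa using Function.Periodic.norm_qParam_lt_one hh hz
  refine ⟨fun z => (h / (2 * π * I)) * C (𝕢 h z), ?_, ?_, ?_⟩
  · intro z
    simp only [qParam_add_period hh.ne' z]
  · intro z hz
    have h1 := (hC _ (hq_mem z hz)).comp z (hasDerivAt_qParam h z)
    have h2 := h1.const_mul ((h : ℂ) / (2 * π * I))
    refine h2.congr_deriv ?_
    have hh' : (h : ℂ) ≠ 0 := by exact_mod_cast hh.ne'
    have hpi : (2 * (π : ℂ) * I) ≠ 0 := Complex.two_pi_I_ne_zero
    have e1 : φ z = c (𝕢 h z) := (Function.Periodic.eq_cuspFunction hh.ne' hper z).symm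
    have e2 : c (𝕢 h z) = (𝕢 h z) * dslope c 0 (𝕢 h z) := by
      have := sub_smul_dslope c 0 (𝕢 h z)
      simp only [sub_zero, smul_eq_mul, hc0] at this
      exact this.symm
    rw [e1, e2]
    field_simp
  · have hCO : C =O[𝓝 0] (fun q : ℂ => q) := by
      have := (hC 0 (mem_ball_self one_pos)).isBigO_sub
      simpa [hC0] using this
    have h3 : (fun z => C (𝕢 h z)) =O[I∞] (fun z => 𝕢 h z) :=
      hCO.comp_tendsto ((Function.Periodic.qParam_tendsto hh).mono_right nhdsWithin_le_nhds)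
    have h4 : (fun z => 𝕢 h z) =O[I∞] (fun z => Real.exp (-2 * π * z.im / h)) := by
      refine IsBigO.of_norm_left ?_
      simp only [Function.Periodic.norm_qParam]
      exact isBigO_refl _ _
    exact (h3.trans h4).const_mul_left _


/-- Periodic, holomorphic on the upper half plane, exponentially decaying at `i∞`. -/
structure Nice (h : ℝ) (φ : ℂ → ℂ) : Prop where
  per : Periodic φ h
  diff : DifferentiableOn ℂ φ upperHalfPlaneSet
  decay : φ =O[I∞] (fun z => Real.exp (-2 * π * z.im / h))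

lemma tendsto_exp_decay {h : ℝ} (hh : 0 < h) :
    Tendsto (fun z : ℂ => Real.exp (-2 * π * z.im / h)) I∞ (𝓝 0) := by
  have h1 : Tendsto (fun y : ℝ => Real.exp (-2 * π * y / h)) atTop (𝓝 0) := by
    refine Real.tendsto_exp_atBot.comp (.atBot_div_const hh (tendsto_id.const_mul_atTop_of_neg ?_))
    simpa using Real.pi_pos
  exact h1.comp tendsto_comap

lemma Nice.zero {h : ℝ} (hh : 0 < h) {φ : ℂ → ℂ} (hφ : Nice h φ) : ZeroAtFilter I∞ φ :=
  hφ.decay.trans_tendsto (tendsto_exp_decay hh)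

lemma Nice.of_zero {h : ℝ} (hh : 0 < h) {φ : ℂ → ℂ} (hper : Periodic φ h)
    (hdiff : DifferentiableOn ℂ φ upperHalfPlaneSet) (hzero : ZeroAtFilter I∞ φ) : Nice h φ where
  per := hper
  diff := hdiff
  decay := by
    refine Function.Periodic.exp_decay_of_zero_at_inf hh hper ?_ hzero
    filter_upwards [eventually_mem_upperHalfPlaneSet] with z hz
    exact hdiff.differentiableAt (isOpen_upperHalfPlaneSet.mem_nhds hz)

theorem Nice.exists_primitive {h : ℝ} (hh : 0 < h) {φ : ℂ → ℂ} (hφ : Nice h φ) :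
    ∃ Φ : ℂ → ℂ, Nice h Φ ∧ ∀ z ∈ upperHalfPlaneSet, HasDerivAt Φ (φ z) z := by
  obtain ⟨Φ, h1, h2, h3⟩ := exists_periodic_primitive hh hφ.per hφ.diff (hφ.zero hh)
  refine ⟨Φ, ⟨h1, ?_, h3⟩, h2⟩
  intro z hz
  exact (h2 z hz).differentiableAt.differentiableWithinAt

open Classical in
/-- A chosen nice primitive. -/
noncomputable def prim (h : ℝ) (φ : ℂ → ℂ) : ℂ → ℂ :=
  if H : 0 < h ∧ Nice h φ then (Nice.exists_primitive H.1 H.2).choose else 0

lemma prim_nice {h : ℝ} (hh : 0 < h) {φ : ℂ → ℂ} (hφ : Nice h φ) : Nice h (prim h φ) := by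
  have H : 0 < h ∧ Nice h φ := ⟨hh, hφ⟩
  simp only [prim, dif_pos H]
  exact (Nice.exists_primitive H.1 H.2).choose_spec.1

lemma prim_hasDerivAt {h : ℝ} (hh : 0 < h) {φ : ℂ → ℂ} (hφ : Nice h φ) {z : ℂ}
    (hz : z ∈ upperHalfPlaneSet) : HasDerivAt (prim h φ) (φ z) z := by
  have H : 0 < h ∧ Nice h φ := ⟨hh, hφ⟩
  simp only [prim, dif_pos H]
  exact (Nice.exists_primitive H.1 H.2).choose_spec.2 z hz

/-- Iterated primitives: `iprim h φ 0` is a primitive of `φ`, and `iprim h φ (i+1)` one of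
`iprim h φ i`. -/
noncomputable def iprim (h : ℝ) (φ : ℂ → ℂ) : ℕ → ℂ → ℂ
  | 0 => prim h φ
  | (i + 1) => prim h (iprim h φ i)

lemma iprim_nice {h : ℝ} (hh : 0 < h) {φ : ℂ → ℂ} (hφ : Nice h φ) (i : ℕ) :
    Nice h (iprim h φ i) := by
  induction i with
  | zero => exact prim_nice hh hφ
  | succ i ih => exact prim_nice hh ih

lemma iprim_zero_hasDerivAt {h : ℝ} (hh : 0 < h) {φ : ℂ → ℂ} (hφ : Nice h φ) {z : ℂ}
    (hz : z ∈ upperHalfPlaneSet) : HasDerivAt (iprim h φ 0) (φ z) z :=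
  prim_hasDerivAt hh hφ hz

lemma iprim_succ_hasDerivAt {h : ℝ} (hh : 0 < h) {φ : ℂ → ℂ} (hφ : Nice h φ) (i : ℕ) {z : ℂ}
    (hz : z ∈ upperHalfPlaneSet) : HasDerivAt (iprim h φ (i + 1)) (iprim h φ i z) z :=
  prim_hasDerivAt hh (iprim_nice hh hφ i) hz


/-! ### Decay in vertical strips -/

/-- The filter "imaginary part tends to infinity while the real part stays bounded by `A`". -/
def stripF (A : ℝ) : Filter ℂ := I∞ ⊓ 𝓟 {z : ℂ | |z.re| ≤ A}

lemma stripF_le (A : ℝ) : stripF A ≤ I∞ := inf_le_left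

lemma eventually_stripF_re (A : ℝ) : ∀ᶠ z in stripF A, |z.re| ≤ A :=
  Filter.eventually_inf_principal.mpr (Filter.Eventually.of_forall fun _ hz => hz)

lemma eventually_stripF_im (A B : ℝ) : ∀ᶠ z in stripF A, B ≤ z.im :=
  ((tendsto_comap (f := Complex.im)).eventually (eventually_ge_atTop B)).filter_mono
    (stripF_le A)

lemma tendsto_pow_mul_exp_neg_mul {a : ℝ} (ha : 0 < a) (j : ℕ) :
    Tendsto (fun y : ℝ => y ^ j * Real.exp (-a * y)) atTop (𝓝 0) := by
  have h := (isLittleO_pow_exp_pos_mul_atTop j ha).tendsto_div_nhds_zero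
  refine h.congr fun y => ?_
  rw [neg_mul, Real.exp_neg, div_eq_mul_inv]

open Polynomial in
lemma tendsto_eval_mul_of_decay {a : ℝ} (ha : 0 < a) {Ψ : ℂ → ℂ}
    (hΨ : Ψ =O[I∞] fun z => Real.exp (-a * z.im)) (Q : ℂ[X]) (A : ℝ) :
    Tendsto (fun z => Q.eval z * Ψ z) (stripF A) (𝓝 0) := by
  induction Q using Polynomial.induction_on' with
  | add P Q hP hQ =>
    have := hP.add hQ
    simp only [add_zero] at this
    refine this.congr fun z => ?_
    simp only [eval_add]; ring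
  | monomial j c =>
    have h1 : (fun z : ℂ => z ^ j) =O[stripF A] (fun z : ℂ => (z.im) ^ j) := by
      refine IsBigO.of_bound (2 ^ j) ?_
      filter_upwards [eventually_stripF_re A, eventually_stripF_im A (max A 0)] with z hz1 hz2
      have him : 0 ≤ z.im := le_trans (le_max_right _ _) hz2
      have hA : A ≤ z.im := le_trans (le_max_left _ _) hz2
      rw [norm_pow, norm_pow, Real.norm_of_nonneg him, ← mul_pow]
      refine pow_le_pow_left₀ (norm_nonneg _) ?_ j
      calc ‖z‖ ≤ |z.re| + |z.im| := Complex.norm_le_abs_re_add_abs_im z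
        _ ≤ A + z.im := by rw [abs_of_nonneg him]; linarith
        _ ≤ 2 * z.im := by linarith
    have h2 : (fun z : ℂ => z ^ j * Ψ z) =O[stripF A]
        (fun z : ℂ => (z.im) ^ j * Real.exp (-a * z.im)) := h1.mul (hΨ.mono (stripF_le A))
    have h3 : Tendsto (fun z : ℂ => (z.im) ^ j * Real.exp (-a * z.im)) (stripF A) (𝓝 0) :=
      ((tendsto_pow_mul_exp_neg_mul ha j).comp tendsto_comap).mono_left (stripF_le A)
    have h4 := (h2.trans_tendsto h3).const_mul c
    simp only [mul_zero] at h4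
    refine h4.congr fun z => ?_
    simp only [eval_monomial]; ring

/-! ### Integration by parts -/

open Polynomial in
/-- `eprim M Ψ P` is `∑ i ≤ M, (-1)^i P^{(i)} Ψ i`: if `Ψ 0` is a primitive of `φ` and
`Ψ (i+1)` a primitive of `Ψ i`, this is a primitive of `φ * P` when `deg P ≤ M`. -/
noncomputable def eprim : ℕ → (ℕ → ℂ → ℂ) → ℂ[X] → ℂ → ℂ
  | 0, Ψ, P, z => P.eval z * Ψ 0 z
  | (M + 1), Ψ, P, z => P.eval z * Ψ 0 z - eprim M (fun i => Ψ (i + 1)) (derivative P) z

open Polynomial in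
lemma eprim_add (M : ℕ) (Ψ : ℕ → ℂ → ℂ) (P Q : ℂ[X]) (z : ℂ) :
    eprim M Ψ (P + Q) z = eprim M Ψ P z + eprim M Ψ Q z := by
  induction M generalizing Ψ P Q with
  | zero => simp only [eprim, eval_add]; ring
  | succ M ih => simp only [eprim, eval_add, derivative_add, ih]; ring

open Polynomial in
lemma eprim_smul (M : ℕ) (Ψ : ℕ → ℂ → ℂ) (c : ℂ) (P : ℂ[X]) (z : ℂ) :
    eprim M Ψ (C c * P) z = c * eprim M Ψ P z := by
  induction M generalizing Ψ P with
  | zero => simp only [eprim, eval_mul, eval_C]; ring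
  | succ M ih =>
    simp only [eprim, eval_mul, eval_C, derivative_mul, derivative_C, zero_mul, zero_add, ih]; ring

open Polynomial in
lemma eprim_zero_poly (M : ℕ) (Ψ : ℕ → ℂ → ℂ) (z : ℂ) : eprim M Ψ 0 z = 0 := by
  induction M generalizing Ψ with
  | zero => simp [eprim]
  | succ M ih => simp [eprim, ih]

open Polynomial in
lemma eprim_sum {ι : Type*} (s : Finset ι) (M : ℕ) (Ψ : ℕ → ℂ → ℂ) (P : ι → ℂ[X]) (z : ℂ) :
    eprim M Ψ (∑ i ∈ s, P i) z = ∑ i ∈ s, eprim M Ψ (P i) z := by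
  classical
  induction s using Finset.induction_on with
  | empty => simp [eprim_zero_poly]
  | insert a s ha ih => rw [Finset.sum_insert ha, Finset.sum_insert ha, eprim_add, ih]

open Polynomial in
theorem hasDerivAt_eprim (M : ℕ) (Ψ : ℕ → ℂ → ℂ) (φ : ℂ → ℂ) (P : ℂ[X]) (hP : P.natDegree ≤ M)
    (h0 : ∀ z ∈ upperHalfPlaneSet, HasDerivAt (Ψ 0) (φ z) z)
    (hs : ∀ i, ∀ z ∈ upperHalfPlaneSet, HasDerivAt (Ψ (i + 1)) (Ψ i z) z)
    {z : ℂ} (hz : z ∈ upperHalfPlaneSet) :
    HasDerivAt (eprim M Ψ P) (φ z * P.eval z) z := by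
  induction M generalizing Ψ φ P with
  | zero =>
    have hP0 : derivative P = 0 := derivative_of_natDegree_zero (Nat.le_zero.mp hP)
    have h1 := (P.hasDerivAt z).mul (h0 z hz)
    rw [hP0] at h1
    simp only [eval_zero, zero_mul, zero_add] at h1
    refine (h1.congr_deriv (by ring)).congr_of_eventuallyEq ?_
    exact Filter.Eventually.of_forall fun w => rfl
  | succ M ih =>
    have hP' : (derivative P).natDegree ≤ M := by
      have := natDegree_derivative_le P
      omega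
    have h1 := (P.hasDerivAt z).mul (h0 z hz)
    have h2 := ih (fun i => Ψ (i + 1)) (Ψ 0) (derivative P) hP' (hs 0) (fun i => hs (i + 1))
    have h3 := h1.sub h2
    refine (h3.congr_deriv (by ring)).congr_of_eventuallyEq ?_
    exact Filter.Eventually.of_forall fun w => rfl

open Polynomial in
theorem tendsto_eprim {a : ℝ} (ha : 0 < a) (M : ℕ) (Ψ : ℕ → ℂ → ℂ)
    (hΨ : ∀ i, Ψ i =O[I∞] fun z => Real.exp (-a * z.im)) (P : ℂ[X]) (A : ℝ) :
    Tendsto (eprim M Ψ P) (stripF A) (𝓝 0) := by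
  induction M generalizing Ψ P with
  | zero => exact tendsto_eval_mul_of_decay ha (hΨ 0) P A
  | succ M ih =>
    have h1 := tendsto_eval_mul_of_decay ha (hΨ 0) P A
    have h2 := ih (fun i => Ψ (i + 1)) (fun i => hΨ (i + 1)) (derivative P)
    have h3 := h1.sub h2
    simp only [sub_zero] at h3
    exact h3

open Polynomial in
/-- The value of `eprim` on `(X - a)^M` at the point `a`. -/
theorem eprim_X_sub_C_pow (M : ℕ) (Ψ : ℕ → ℂ → ℂ) (a : ℂ) :
    eprim M Ψ ((X - C a) ^ M) a = (-1) ^ M * (M.factorial : ℂ) * Ψ M a := by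
  induction M generalizing Ψ with
  | zero => simp [eprim]
  | succ M ih =>
    have hd : derivative ((X - C a) ^ (M + 1)) = C ((M + 1 : ℕ) : ℂ) * (X - C a) ^ M := by
      rw [derivative_X_sub_C_pow]
      simp
    simp only [eprim, hd, eprim_smul, ih, eval_pow, eval_sub, eval_X, eval_C, sub_self]
    rw [Nat.factorial_succ]
    push_cast
    ring


/-! ### Uniqueness -/

lemma isPreconnected_upperHalfPlaneSet : IsPreconnected upperHalfPlaneSet :=
  (convex_halfSpace_im_gt 0).isPreconnected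

lemma stripF_neBot (A : ℝ) (hA : 0 ≤ A) : (stripF A).NeBot := by
  have hne : (I∞ : Filter ℂ).NeBot := by
    refine Filter.comap_neBot fun t ht => ?_
    obtain ⟨y, hy⟩ := (Filter.nonempty_of_mem ht)
    exact ⟨(y : ℂ) * Complex.I, by simpa using hy⟩
  rw [stripF, Filter.inf_principal_neBot_iff]
  intro U hU
  obtain ⟨t, ht, htU⟩ := Filter.mem_comap.mp hU
  obtain ⟨y, hy⟩ := Filter.nonempty_of_mem ht
  refine ⟨(y : ℂ) * Complex.I, htU (by simpa using hy), ?_⟩
  simpa using hA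

/-- A function with zero derivative on the upper half plane which tends to zero along a strip
vanishes there. -/
theorem eq_zero_of_hasDerivAt_zero_of_tendsto {G : ℂ → ℂ}
    (h1 : ∀ z ∈ upperHalfPlaneSet, HasDerivAt G 0 z) {A : ℝ} (hA : 0 ≤ A)
    (t1 : Tendsto G (stripF A) (𝓝 0)) {z : ℂ} (hz : z ∈ upperHalfPlaneSet) : G z = 0 := by
  have hd : DifferentiableOn ℂ G upperHalfPlaneSet :=
    fun w hw => (h1 w hw).differentiableAt.differentiableWithinAt
  have hconst : ∀ w ∈ upperHalfPlaneSet, G w = G z := fun w hw =>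
    isOpen_upperHalfPlaneSet.is_const_of_deriv_eq_zero isPreconnected_upperHalfPlaneSet hd
      (fun x hx => (h1 x hx).deriv) hw hz
  have := stripF_neBot A hA
  have hev : ∀ᶠ w in stripF A, G w = G z := by
    filter_upwards [eventually_stripF_im A 1] with w hw
    exact hconst w (by show 0 < w.im; linarith)
  have t2 : Tendsto G (stripF A) (𝓝 (G z)) :=
    (tendsto_const_nhds (x := G z)).congr' (hev.mono fun w hw => hw.symm)
  exact tendsto_nhds_unique t2 t1

theorem eqOn_of_hasDerivAt_of_tendsto {G₁ G₂ ψ : ℂ → ℂ}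
    (h1 : ∀ z ∈ upperHalfPlaneSet, HasDerivAt G₁ (ψ z) z)
    (h2 : ∀ z ∈ upperHalfPlaneSet, HasDerivAt G₂ (ψ z) z) {A : ℝ} (hA : 0 ≤ A)
    (t1 : Tendsto G₁ (stripF A) (𝓝 0)) (t2 : Tendsto G₂ (stripF A) (𝓝 0)) :
    EqOn G₁ G₂ upperHalfPlaneSet := by
  intro z hz
  have h3 : ∀ w ∈ upperHalfPlaneSet, HasDerivAt (fun w => G₁ w - G₂ w) 0 w := fun w hw =>
    ((h1 w hw).fun_sub (h2 w hw)).congr_deriv (sub_self _)
  have t3 : Tendsto (fun w => G₁ w - G₂ w) (stripF A) (𝓝 0) := by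
    simpa using t1.sub t2
  have := eq_zero_of_hasDerivAt_zero_of_tendsto h3 hA t3 hz
  exact sub_eq_zero.mp this

/-! ### The Eichler primitive -/

/-- The primitive of `φ * P` vanishing at `i∞` in vertical strips (for `deg P ≤ n`). -/
noncomputable def epr (h : ℝ) (φ : ℂ → ℂ) (n : ℕ) (P : Polynomial ℂ) : ℂ → ℂ :=
  eprim n (iprim h φ) P

theorem epr_hasDerivAt {h : ℝ} (hh : 0 < h) {φ : ℂ → ℂ} (hφ : Nice h φ) {n : ℕ}
    {P : Polynomial ℂ} (hP : P.natDegree ≤ n) {z : ℂ} (hz : z ∈ upperHalfPlaneSet) :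
    HasDerivAt (epr h φ n P) (φ z * P.eval z) z :=
  hasDerivAt_eprim n (iprim h φ) φ P hP (fun _ hw => iprim_zero_hasDerivAt hh hφ hw)
    (fun i _ hw => iprim_succ_hasDerivAt hh hφ i hw) hz

theorem epr_tendsto {h : ℝ} (hh : 0 < h) {φ : ℂ → ℂ} (hφ : Nice h φ) (n : ℕ)
    (P : Polynomial ℂ) (A : ℝ) : Tendsto (epr h φ n P) (stripF A) (𝓝 0) := by
  have ha : 0 < 2 * π / h := by positivity
  refine tendsto_eprim ha n (iprim h φ) (fun i => ?_) P A
  have := (iprim_nice hh hφ i).decay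
  refine this.congr_right fun z => ?_
  congr 1
  ring

theorem epr_unique {h : ℝ} (hh : 0 < h) {φ : ℂ → ℂ} (hφ : Nice h φ) {n : ℕ}
    {P : Polynomial ℂ} (hP : P.natDegree ≤ n) {G : ℂ → ℂ}
    (hG : ∀ z ∈ upperHalfPlaneSet, HasDerivAt G (φ z * P.eval z) z) {A : ℝ} (hA : 0 ≤ A)
    (tG : Tendsto G (stripF A) (𝓝 0)) : EqOn G (epr h φ n P) upperHalfPlaneSet :=
  eqOn_of_hasDerivAt_of_tendsto hG (fun _ hz => epr_hasDerivAt hh hφ hP hz) hA tG
    (epr_tendsto hh hφ n P A)

lemma epr_add (h : ℝ) (φ : ℂ → ℂ) (n : ℕ) (P Q : Polynomial ℂ) (z : ℂ) :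
    epr h φ n (P + Q) z = epr h φ n P z + epr h φ n Q z := eprim_add _ _ _ _ _

lemma epr_smul (h : ℝ) (φ : ℂ → ℂ) (n : ℕ) (c : ℂ) (P : Polynomial ℂ) (z : ℂ) :
    epr h φ n (Polynomial.C c * P) z = c * epr h φ n P z := eprim_smul _ _ _ _ _

lemma epr_sum {ι : Type*} (s : Finset ι) (h : ℝ) (φ : ℂ → ℂ) (n : ℕ) (P : ι → Polynomial ℂ)
    (z : ℂ) : epr h φ n (∑ i ∈ s, P i) z = ∑ i ∈ s, epr h φ n (P i) z := eprim_sum _ _ _ _ _

theorem epr_X_sub_C_pow (h : ℝ) (φ : ℂ → ℂ) (n : ℕ) (a : ℂ) :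
    epr h φ n ((Polynomial.X - Polynomial.C a) ^ n) a =
      (-1) ^ n * (n.factorial : ℂ) * iprim h φ n a := eprim_X_sub_C_pow _ _ _

end Fermat.Agent.S22.Alt88
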