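import Mathlib
import Fermat.Agent.S22.Alt88.Prim

/-!
A cusp form, viewed as a function on `ℂ` via `ofComplex`, is `Nice`.
-/

set_option autoImplicit false

namespace Fermat.Agent.S22.Alt88

open Complex Filter Function Topology Set
open UpperHalfPlane hiding I
open scoped Real MatrixGroups

local notation "I∞" => comap Complex.im atTop

/-- A cusp form for a group with strict period `h > 0` gives a `Nice h` function on `ℂ`. -/
theorem nice_of_cuspForm {F : Type*} [FunLike F ℍ ℂ] {Γ : Subgroup (GL (Fin 2) ℝ)} {k : ℤ}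
    [CuspFormClass F Γ k] (f : F) {h : ℝ} (hh : 0 < h) (hΓ : h ∈ Γ.strictPeriods) :
    Nice h (⇑f ∘ ofComplex) := by
  have : Fact (IsCusp OnePoint.infty Γ) := ⟨Γ.isCusp_of_mem_strictPeriods hh hΓ⟩
  refine Nice.of_zero hh ?_ ?_ ?_
  · exact SlashInvariantFormClass.periodic_comp_ofComplex f hΓ
  · exact mdifferentiable_iff.mp (CuspFormClass.holo f)
  · exact CuspFormClass.zero_at_infty_comp_ofComplex f

end Fermat.Agent.S22.Alt88
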