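import Mathlib

/-!
Integer matrices acting on the upper half plane (as a subset of `ℂ`) and on polynomials of
degree at most `n`.
-/

set_option autoImplicit false

namespace Fermat.Agent.S22.Alt88

open Complex Polynomial
open UpperHalfPlane hiding I

/-- Two by two integer matrices. -/
abbrev M2 := Matrix (Fin 2) (Fin 2) ℤ

/-- The numerator of the Möbius action. -/
def num (A : M2) (z : ℂ) : ℂ := (A 0 0 : ℂ) * z + (A 0 1 : ℂ)

/-- The denominator of the Möbius action. -/
def den (A : M2) (z : ℂ) : ℂ := (A 1 0 : ℂ) * z + (A 1 1 : ℂ)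

/-- The Möbius action on `ℂ`. -/
noncomputable def mob (A : M2) (z : ℂ) : ℂ := num A z / den A z

lemma det_eq (A : M2) : A.det = A 0 0 * A 1 1 - A 0 1 * A 1 0 := Matrix.det_fin_two A

lemma den_ne_zero {A : M2} (hA : A.det ≠ 0) {z : ℂ} (hz : 0 < z.im) : den A z ≠ 0 := by
  intro h
  have him : (den A z).im = 0 := by rw [h]; rfl
  have hre : (den A z).re = 0 := by rw [h]; rfl
  simp only [den, add_im, mul_im, intCast_re, intCast_im, zero_mul, add_zero] at him
  simp only [den, add_re, mul_re, intCast_re, intCast_im, zero_mul, sub_zero] at hre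
  have hc : (A 1 0 : ℝ) = 0 := by
    rcases mul_eq_zero.mp him with h1 | h1
    · exact h1
    · exact absurd h1 hz.ne'
  have hd : (A 1 1 : ℝ) = 0 := by rw [hc] at hre; simpa using hre
  have hc' : A 1 0 = 0 := by exact_mod_cast hc
  have hd' : A 1 1 = 0 := by exact_mod_cast hd
  apply hA
  rw [det_eq, hc', hd']
  ring

lemma num_mul (A B : M2) (z : ℂ) (hz : den B z ≠ 0) :
    num (A * B) z = num A (mob B z) * den B z := by
  simp only [num, mob, den, Matrix.mul_apply, Fin.sum_univ_two] at *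
  push_cast
  field_simp
  ring

lemma den_mul (A B : M2) (z : ℂ) (hz : den B z ≠ 0) :
    den (A * B) z = den A (mob B z) * den B z := by
  simp only [num, mob, den, Matrix.mul_apply, Fin.sum_univ_two] at *
  push_cast
  field_simp
  ring

lemma mob_mul (A B : M2) (z : ℂ) (hz : den B z ≠ 0) :
    mob (A * B) z = mob A (mob B z) := by
  rw [mob, num_mul A B z hz, den_mul A B z hz, mul_div_mul_right _ _ hz]
  rfl

lemma mob_one (z : ℂ) : mob 1 z = z := by
  simp [mob, num, den]

lemma den_one (z : ℂ) : den 1 z = 1 := by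
  simp [den]

lemma im_mob (A : M2) (z : ℂ) : (mob A z).im = A.det * z.im / normSq (den A z) := by
  rw [mob, div_im, det_eq]
  simp only [num, den, add_im, mul_im, add_re, mul_re, intCast_re, intCast_im, zero_mul,
    add_zero, sub_zero]
  push_cast
  ring

lemma mob_mem {A : M2} (hA : 0 < A.det) {z : ℂ} (hz : 0 < z.im) : 0 < (mob A z).im := by
  rw [im_mob]
  have h1 : 0 < normSq (den A z) := normSq_pos.mpr (den_ne_zero hA.ne' hz)
  have h2 : (0 : ℝ) < A.det := by exact_mod_cast hA
  positivity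

lemma hasDerivAt_mob (A : M2) {z : ℂ} (hz : den A z ≠ 0) :
    HasDerivAt (mob A) ((A.det : ℂ) / (den A z) ^ 2) z := by
  have h1 : HasDerivAt (num A) (A 0 0 : ℂ) z :=
    (((hasDerivAt_id' z).const_mul (A 0 0 : ℂ)).add_const (A 0 1 : ℂ)).congr_deriv (mul_one _)
  have h2 : HasDerivAt (den A) (A 1 0 : ℂ) z :=
    (((hasDerivAt_id' z).const_mul (A 1 0 : ℂ)).add_const (A 1 1 : ℂ)).congr_deriv (mul_one _)
  have h3 := h1.div h2 hz
  refine h3.congr_deriv ?_
  rw [det_eq]
  simp only [num, den]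
  push_cast
  ring

/-! ### The action on polynomials -/

section pact

variable (R : Type*) [CommRing R]

/-- The weight `-n` action of an integer matrix on polynomials of degree at most `n`:
`(P | A)(z) = P(A z) (c z + d)^n`. -/
noncomputable def pact (n : ℕ) (A : M2) (P : R[X]) : R[X] :=
  ∑ m ∈ Finset.range (n + 1), C (P.coeff m) * (C (A 0 0 : R) * X + C (A 0 1 : R)) ^ m *
    (C (A 1 0 : R) * X + C (A 1 1 : R)) ^ (n - m)

lemma natDegree_pact_le (n : ℕ) (A : M2) (P : R[X]) : (pact R n A P).natDegree ≤ n := by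
  unfold pact
  refine natDegree_sum_le_of_forall_le _ _ fun m hm => ?_
  have hm' : m ≤ n := Nat.lt_succ_iff.mp (Finset.mem_range.mp hm)
  have h1 : (C (A 0 0 : R) * X + C (A 0 1 : R)).natDegree ≤ 1 :=
    natDegree_linear_le
  have h2 : (C (A 1 0 : R) * X + C (A 1 1 : R)).natDegree ≤ 1 :=
    natDegree_linear_le
  calc (C (P.coeff m) * (C (A 0 0 : R) * X + C (A 0 1 : R)) ^ m *
        (C (A 1 0 : R) * X + C (A 1 1 : R)) ^ (n - m)).natDegree
      ≤ (C (P.coeff m) * (C (A 0 0 : R) * X + C (A 0 1 : R)) ^ m).natDegree +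
        ((C (A 1 0 : R) * X + C (A 1 1 : R)) ^ (n - m)).natDegree := natDegree_mul_le
    _ ≤ ((C (P.coeff m)).natDegree + ((C (A 0 0 : R) * X + C (A 0 1 : R)) ^ m).natDegree) +
        ((C (A 1 0 : R) * X + C (A 1 1 : R)) ^ (n - m)).natDegree := by
        gcongr; exact natDegree_mul_le
    _ ≤ (0 + m * 1) + (n - m) * 1 := by
        gcongr
        · simp
        · exact natDegree_pow_le_of_le m h1
        · exact natDegree_pow_le_of_le (n - m) h2
    _ = n := by omega

end pact

lemma pact_map (n : ℕ) (A : M2) (P : ℤ[X]) :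
    (pact ℤ n A P).map (Int.castRingHom ℂ) = pact ℂ n A (P.map (Int.castRingHom ℂ)) := by
  simp only [pact, Polynomial.map_sum, Polynomial.map_mul, Polynomial.map_pow, Polynomial.map_add,
    Polynomial.map_C, Polynomial.map_X, coeff_map, Int.coe_castRingHom, Int.cast_id]

lemma eval_pact {n : ℕ} (A : M2) {P : ℂ[X]} (hP : P.natDegree ≤ n) {z : ℂ} (hz : den A z ≠ 0) :
    (pact ℂ n A P).eval z = P.eval (mob A z) * (den A z) ^ n := by
  rw [eval_eq_sum_range' (Nat.lt_succ_of_le hP) (mob A z), Finset.sum_mul]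
  simp only [pact, eval_finsetSum, eval_mul, eval_C, eval_pow, eval_add, eval_X]
  refine Finset.sum_congr rfl fun m hm => ?_
  have hm' : m ≤ n := Nat.lt_succ_iff.mp (Finset.mem_range.mp hm)
  have e1 : (A 0 0 : ℂ) * z + (A 0 1 : ℂ) = num A z := rfl
  have e2 : (A 1 0 : ℂ) * z + (A 1 1 : ℂ) = den A z := rfl
  rw [e1, e2, mob, div_pow]
  have : (den A z) ^ n = (den A z) ^ m * (den A z) ^ (n - m) := by
    rw [← pow_add]; congr 1; omega
  rw [this]
  field_simp

lemma infinite_upperHalfPlaneSet : (upperHalfPlaneSet).Infinite := by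
  refine Set.infinite_of_injective_forall_mem (f := fun m : ℕ => ((m : ℂ) + 1) * I) ?_ ?_
  · intro a b hab
    have := congrArg Complex.im hab
    simpa using this
  · intro m
    show 0 < (((m : ℂ) + 1) * I).im
    simp
    positivity

/-- Two polynomials which agree on the upper half plane are equal. -/
lemma eq_of_eval_eq_on_upperHalfPlane {P Q : ℂ[X]}
    (h : ∀ z : ℂ, 0 < z.im → P.eval z = Q.eval z) : P = Q :=
  eq_of_infinite_eval_eq P Q (infinite_upperHalfPlaneSet.mono fun z hz => h z hz)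

lemma pact_mul_complex {n : ℕ} {A B : M2} (hA : 0 < A.det) (hB : 0 < B.det) {P : ℂ[X]}
    (hP : P.natDegree ≤ n) : pact ℂ n (A * B) P = pact ℂ n B (pact ℂ n A P) := by
  refine eq_of_eval_eq_on_upperHalfPlane fun z hz => ?_
  have hAB : 0 < (A * B).det := by rw [Matrix.det_mul]; positivity
  have h1 : den B z ≠ 0 := den_ne_zero hB.ne' hz
  have h2 : den A (mob B z) ≠ 0 := den_ne_zero hA.ne' (mob_mem hB hz)
  have h3 : den (A * B) z ≠ 0 := den_ne_zero hAB.ne' hz
  rw [eval_pact _ hP h3, eval_pact _ (natDegree_pact_le ℂ n A P) h1, eval_pact _ hP h2,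
    mob_mul A B z h1, den_mul A B z h1, mul_pow, mul_assoc]

lemma pact_mul_int {n : ℕ} {A B : M2} (hA : 0 < A.det) (hB : 0 < B.det) {P : ℤ[X]}
    (hP : P.natDegree ≤ n) : pact ℤ n (A * B) P = pact ℤ n B (pact ℤ n A P) := by
  apply Polynomial.map_injective (Int.castRingHom ℂ) Int.cast_injective
  rw [pact_map, pact_map, pact_map]
  exact pact_mul_complex hA hB ((natDegree_map_le).trans hP)

lemma pact_one {n : ℕ} {P : ℂ[X]} (hP : P.natDegree ≤ n) : pact ℂ n 1 P = P := by
  refine eq_of_eval_eq_on_upperHalfPlane fun z _ => ?_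
  rw [eval_pact _ hP (by rw [den_one]; exact one_ne_zero), mob_one, den_one, one_pow, mul_one]

lemma pact_add (n : ℕ) (A : M2) (P Q : ℂ[X]) :
    pact ℂ n A (P + Q) = pact ℂ n A P + pact ℂ n A Q := by
  simp only [pact, coeff_add, C_add, add_mul, Finset.sum_add_distrib]

lemma pact_C_mul (n : ℕ) (A : M2) (c : ℂ) (P : ℂ[X]) :
    pact ℂ n A (C c * P) = C c * pact ℂ n A P := by
  simp only [pact, coeff_C_mul, C_mul, Finset.mul_sum, mul_assoc]

end Fermat.Agent.S22.Alt88
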