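import Mathlib
import Fermat.Agent.S22.Alt88.Prim
import Fermat.Agent.S22.Alt88.PolyAct
import Fermat.Agent.S22.Alt88.CuspNice
import Fermat.Agent.S22.Alt88.Gamma0FG
import Fermat.Prelude.Thm_CongruenceSubgroup_one_mem_strictPeriods_Gamma0

/-!
Period functionals (modular symbols with base point `i∞`) on cusp forms for `Γ₀(N)`.
-/

set_option autoImplicit false

namespace Fermat.Agent.S22.Alt88

open Complex Filter Function Topology Set Polynomial CongruenceSubgroup
open UpperHalfPlane hiding I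
open scoped Real MatrixGroups

variable {N : ℕ} {k : ℤ}

/-- The underlying integer matrix of an element of `SL(2, ℤ)`. -/
abbrev toM2 (g : SL(2, ℤ)) : M2 := (g : Matrix (Fin 2) (Fin 2) ℤ)

lemma det_toM2 (g : SL(2, ℤ)) : (toM2 g).det = 1 := g.det_coe

lemma toM2_mul (g g' : SL(2, ℤ)) : toM2 (g * g') = toM2 g * toM2 g' := rfl

lemma toM2_one : toM2 1 = 1 := rfl

/-- A cusp form as a function on `ℂ`. -/
noncomputable def cfun (f : CuspForm (Gamma0 N) k) : ℂ → ℂ := ⇑f ∘ ofComplex

lemma cfun_nice (f : CuspForm (Gamma0 N) k) : Nice 1 (cfun f) :=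
  nice_of_cuspForm f one_pos (CongruenceSubgroup.one_mem_strictPeriods_Gamma0 N)

lemma cfun_apply (f : CuspForm (Gamma0 N) k) {z : ℂ} (hz : 0 < z.im) :
    cfun f z = f ⟨z, hz⟩ := by
  simp only [cfun, Function.comp_apply, ofComplex_apply_of_im_pos hz]

lemma cfun_add (f g : CuspForm (Gamma0 N) k) (z : ℂ) : cfun (f + g) z = cfun f z + cfun g z := rfl

lemma cfun_smul (c : ℂ) (f : CuspForm (Gamma0 N) k) (z : ℂ) : cfun (c • f) z = c * cfun f z := rfl

lemma coe_smul_eq_mob (g : SL(2, ℤ)) (τ : ℍ) : ((g • τ : ℍ) : ℂ) = mob (toM2 g) τ := by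
  rw [coe_specialLinearGroup_apply]
  simp [mob, num, den]

lemma denom_eq_den (g : SL(2, ℤ)) (τ : ℍ) : denom g τ = den (toM2 g) τ := by
  rw [ModularGroup.denom_apply]
  simp [den]

/-- The transformation law of a cusp form, on `ℂ`. -/
lemma cfun_mob (f : CuspForm (Gamma0 N) k) {g : SL(2, ℤ)} (hg : g ∈ Gamma0 N) {z : ℂ}
    (hz : 0 < z.im) : cfun f (mob (toM2 g) z) = den (toM2 g) z ^ k * cfun f z := by
  set τ : ℍ := ⟨z, hz⟩
  have h1 := SlashInvariantForm.slash_action_eqn_SL'' f hg τ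
  have h2 : 0 < (mob (toM2 g) z).im := mob_mem (by rw [det_toM2]; exact one_pos) hz
  rw [cfun_apply f h2, cfun_apply f hz]
  have h3 : (⟨mob (toM2 g) z, h2⟩ : ℍ) = g • τ := by
    ext
    rw [coe_smul_eq_mob]
  rw [h3, h1, denom_eq_den]


/-- The degree bound `n = k - 2`. -/
abbrev wt (k : ℤ) : ℕ := (k - 2).toNat

lemma wt_cast (hk : 2 ≤ k) : ((wt k : ℕ) : ℤ) = k - 2 := Int.toNat_of_nonneg (by omega)

/-- The Eichler primitive of `f * P` vanishing at `i∞`. -/
noncomputable def E (f : CuspForm (Gamma0 N) k) (P : ℂ[X]) : ℂ → ℂ :=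
  epr 1 (cfun f) (wt k) P

lemma E_hasDerivAt (f : CuspForm (Gamma0 N) k) {P : ℂ[X]} (hP : P.natDegree ≤ wt k) {z : ℂ}
    (hz : 0 < z.im) : HasDerivAt (E f P) (cfun f z * P.eval z) z :=
  epr_hasDerivAt one_pos (cfun_nice f) hP hz

lemma E_tendsto (f : CuspForm (Gamma0 N) k) (P : ℂ[X]) (A : ℝ) :
    Tendsto (E f P) (stripF A) (𝓝 0) :=
  epr_tendsto one_pos (cfun_nice f) _ P A

lemma E_unique (f : CuspForm (Gamma0 N) k) {P : ℂ[X]} (hP : P.natDegree ≤ wt k) {G : ℂ → ℂ}
    (hG : ∀ z : ℂ, 0 < z.im → HasDerivAt G (cfun f z * P.eval z) z) {A : ℝ} (hA : 0 ≤ A)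
    (tG : Tendsto G (stripF A) (𝓝 0)) {z : ℂ} (hz : 0 < z.im) : G z = E f P z :=
  epr_unique one_pos (cfun_nice f) hP hG hA tG hz

lemma E_add_poly (f : CuspForm (Gamma0 N) k) (P Q : ℂ[X]) (z : ℂ) :
    E f (P + Q) z = E f P z + E f Q z := epr_add _ _ _ _ _ _

lemma E_C_mul (f : CuspForm (Gamma0 N) k) (c : ℂ) (P : ℂ[X]) (z : ℂ) :
    E f (C c * P) z = c * E f P z := epr_smul _ _ _ _ _ _

lemma E_sum {ι : Type*} (s : Finset ι) (f : CuspForm (Gamma0 N) k) (P : ι → ℂ[X]) (z : ℂ) :
    E f (∑ i ∈ s, P i) z = ∑ i ∈ s, E f (P i) z := epr_sum _ _ _ _ _ _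

lemma E_add_form (f g : CuspForm (Gamma0 N) k) {P : ℂ[X]} (hP : P.natDegree ≤ wt k) {z : ℂ}
    (hz : 0 < z.im) : E (f + g) P z = E f P z + E g P z := by
  symm
  refine E_unique (f + g) hP (G := fun w => E f P w + E g P w) (fun w hw => ?_) le_rfl ?_ hz
  · have := (E_hasDerivAt f hP hw).add (E_hasDerivAt g hP hw)
    refine this.congr_deriv ?_
    rw [cfun_add]; ring
  · simpa using (E_tendsto f P 0).add (E_tendsto g P 0)

lemma E_smul_form (c : ℂ) (f : CuspForm (Gamma0 N) k) {P : ℂ[X]} (hP : P.natDegree ≤ wt k) {z : ℂ}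
    (hz : 0 < z.im) : E (c • f) P z = c * E f P z := by
  symm
  refine E_unique (c • f) hP (G := fun w => c * E f P w) (fun w hw => ?_) le_rfl ?_ hz
  · have := (E_hasDerivAt f hP hw).const_mul c
    refine this.congr_deriv ?_
    rw [cfun_smul]; ring
  · simpa using (E_tendsto f P 0).const_mul c

/-- The function whose constant value is the period `∫_{i∞}^{γ i∞} f P`. -/
noncomputable def periodFun (f : CuspForm (Gamma0 N) k) (g : SL(2, ℤ)) (P : ℂ[X]) (z : ℂ) : ℂ :=
  E f P (mob (toM2 g) z) - E f (pact ℂ (wt k) (toM2 g) P) z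

lemma periodFun_hasDerivAt (hk : 2 ≤ k) (f : CuspForm (Gamma0 N) k) {g : SL(2, ℤ)}
    (hg : g ∈ Gamma0 N) {P : ℂ[X]} (hP : P.natDegree ≤ wt k) {z : ℂ} (hz : 0 < z.im) :
    HasDerivAt (periodFun f g P) 0 z := by
  have hdet : (toM2 g).det ≠ 0 := by rw [det_toM2]; exact one_ne_zero
  have hden : den (toM2 g) z ≠ 0 := den_ne_zero hdet hz
  have hmem : 0 < (mob (toM2 g) z).im := mob_mem (by rw [det_toM2]; exact one_pos) hz
  have h1 := (E_hasDerivAt f hP hmem).comp z (hasDerivAt_mob (toM2 g) hden)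
  have h2 := E_hasDerivAt f (natDegree_pact_le ℂ (wt k) (toM2 g) P) hz
  have h3 := h1.sub h2
  refine (h3.congr_deriv ?_)
  rw [cfun_mob f hg hz, eval_pact _ hP hden, det_toM2]
  have hk' : k = (wt k : ℤ) + 2 := by rw [wt_cast hk]; ring
  have : den (toM2 g) z ^ k = den (toM2 g) z ^ (wt k) * den (toM2 g) z ^ 2 := by
    conv_lhs => rw [hk']
    rw [zpow_add₀ hden, zpow_natCast]
    norm_cast
  rw [this]
  field_simp
  ring

lemma periodFun_const (hk : 2 ≤ k) (f : CuspForm (Gamma0 N) k) {g : SL(2, ℤ)}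
    (hg : g ∈ Gamma0 N) {P : ℂ[X]} (hP : P.natDegree ≤ wt k) {z w : ℂ} (hz : 0 < z.im)
    (hw : 0 < w.im) : periodFun f g P z = periodFun f g P w := by
  have hd : DifferentiableOn ℂ (periodFun f g P) upperHalfPlaneSet := fun x hx =>
    (periodFun_hasDerivAt hk f hg hP hx).differentiableAt.differentiableWithinAt
  exact isOpen_upperHalfPlaneSet.is_const_of_deriv_eq_zero isPreconnected_upperHalfPlaneSet hd
    (fun x hx => (periodFun_hasDerivAt hk f hg hP hx).deriv) hz hw

/-- The period of `f` against `P` along `γ`. -/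
noncomputable def period (f : CuspForm (Gamma0 N) k) (g : SL(2, ℤ)) (P : ℂ[X]) : ℂ :=
  periodFun f g P I

lemma periodFun_eq_period (hk : 2 ≤ k) (f : CuspForm (Gamma0 N) k) {g : SL(2, ℤ)}
    (hg : g ∈ Gamma0 N) {P : ℂ[X]} (hP : P.natDegree ≤ wt k) {z : ℂ} (hz : 0 < z.im) :
    periodFun f g P z = period f g P :=
  periodFun_const hk f hg hP hz (by simp)


lemma I_im_pos : 0 < (I : ℂ).im := by simp

lemma mob_I_im_pos (g : SL(2, ℤ)) : 0 < (mob (toM2 g) I).im :=
  mob_mem (by rw [det_toM2]; exact one_pos) I_im_pos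

lemma period_add_form (f f' : CuspForm (Gamma0 N) k) (g : SL(2, ℤ)) {P : ℂ[X]}
    (hP : P.natDegree ≤ wt k) : period (f + f') g P = period f g P + period f' g P := by
  simp only [period, periodFun]
  rw [E_add_form f f' hP (mob_I_im_pos g),
    E_add_form f f' (natDegree_pact_le ℂ (wt k) (toM2 g) P) I_im_pos]
  ring

lemma period_smul_form (c : ℂ) (f : CuspForm (Gamma0 N) k) (g : SL(2, ℤ)) {P : ℂ[X]}
    (hP : P.natDegree ≤ wt k) : period (c • f) g P = c * period f g P := by
  simp only [period, periodFun]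
  rw [E_smul_form c f hP (mob_I_im_pos g),
    E_smul_form c f (natDegree_pact_le ℂ (wt k) (toM2 g) P) I_im_pos]
  ring

lemma period_add_poly (f : CuspForm (Gamma0 N) k) (g : SL(2, ℤ)) (P Q : ℂ[X]) :
    period f g (P + Q) = period f g P + period f g Q := by
  simp only [period, periodFun, pact_add, E_add_poly]
  ring

lemma period_C_mul (f : CuspForm (Gamma0 N) k) (g : SL(2, ℤ)) (c : ℂ) (P : ℂ[X]) :
    period f g (C c * P) = c * period f g P := by
  simp only [period, periodFun, pact_C_mul, E_C_mul]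
  ring

lemma period_zero_poly (f : CuspForm (Gamma0 N) k) (g : SL(2, ℤ)) : period f g 0 = 0 := by
  have := period_C_mul f g 0 0
  simpa using this

lemma period_sum {ι : Type*} (s : Finset ι) (f : CuspForm (Gamma0 N) k) (g : SL(2, ℤ))
    (P : ι → ℂ[X]) : period f g (∑ i ∈ s, P i) = ∑ i ∈ s, period f g (P i) := by
  classical
  induction s using Finset.induction_on with
  | empty => simp [period_zero_poly]
  | insert a s ha ih => rw [Finset.sum_insert ha, Finset.sum_insert ha, period_add_poly, ih]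

/-- A period is a combination of the periods against the monomials. -/
lemma period_eq_sum_monomials (f : CuspForm (Gamma0 N) k) (g : SL(2, ℤ)) {P : ℂ[X]}
    (hP : P.natDegree ≤ wt k) :
    period f g P = ∑ m ∈ Finset.range (wt k + 1), P.coeff m * period f g (X ^ m) := by
  conv_lhs => rw [P.as_sum_range' (wt k + 1) (Nat.lt_succ_of_le hP)]
  rw [period_sum]
  refine Finset.sum_congr rfl fun m _ => ?_
  rw [← C_mul_X_pow_eq_monomial, period_C_mul]

lemma period_one (f : CuspForm (Gamma0 N) k) {P : ℂ[X]} (hP : P.natDegree ≤ wt k) :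
    period f 1 P = 0 := by
  simp only [period, periodFun, toM2_one, mob_one, pact_one hP, sub_self]

/-- The cocycle relation. -/
lemma period_mul (hk : 2 ≤ k) (f : CuspForm (Gamma0 N) k) {g : SL(2, ℤ)} (g' : SL(2, ℤ))
    (hg : g ∈ Gamma0 N) {P : ℂ[X]} (hP : P.natDegree ≤ wt k) :
    period f (g * g') P = period f g P + period f g' (pact ℂ (wt k) (toM2 g) P) := by
  have hd : (0 : ℤ) < (toM2 g).det := by rw [det_toM2]; exact one_pos
  have hd' : (0 : ℤ) < (toM2 g').det := by rw [det_toM2]; exact one_pos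
  have h1 : period f g P = periodFun f g P (mob (toM2 g') I) :=
    (periodFun_eq_period hk f hg hP (mob_I_im_pos g')).symm
  rw [h1]
  simp only [period, periodFun, toM2_mul]
  rw [pact_mul_complex hd hd' hP, mob_mul _ _ _ (den_ne_zero hd'.ne' I_im_pos)]
  ring

/-- The period as a linear functional on cusp forms. -/
noncomputable def periodLin (k : ℤ) (N : ℕ) (g : SL(2, ℤ)) (P : ℂ[X]) (hP : P.natDegree ≤ wt k) :
    Module.Dual ℂ (CuspForm (Gamma0 N) k) where
  toFun f := period f g P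
  map_add' f f' := period_add_form f f' g hP
  map_smul' c f := period_smul_form c f g hP

@[simp] lemma periodLin_apply (g : SL(2, ℤ)) (P : ℂ[X]) (hP : P.natDegree ≤ wt k)
    (f : CuspForm (Gamma0 N) k) : periodLin k N g P hP f = period f g P := rfl


/-! ### The period lattice -/

/-- An integral polynomial, as a complex polynomial. -/
noncomputable abbrev toC (P : ℤ[X]) : ℂ[X] := P.map (Int.castRingHom ℂ)

lemma natDegree_toC_le {P : ℤ[X]} {n : ℕ} (hP : P.natDegree ≤ n) : (toC P).natDegree ≤ n :=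
  natDegree_map_le.trans hP

/-- The set of period functionals against integral polynomials. -/
def periodSet (k : ℤ) (N : ℕ) : Set (Module.Dual ℂ (CuspForm (Gamma0 N) k)) :=
  {lam | ∃ (g : SL(2, ℤ)) (_ : g ∈ Gamma0 N) (P : ℤ[X]) (hP : P.natDegree ≤ wt k),
    lam = periodLin k N g (toC P) (natDegree_toC_le hP)}

/-- The lattice of period functionals. -/
def periodLattice (k : ℤ) (N : ℕ) : Submodule ℤ (Module.Dual ℂ (CuspForm (Gamma0 N) k)) :=
  Submodule.span ℤ (periodSet k N)

lemma periodLin_mem_periodLattice {g : SL(2, ℤ)} (hg : g ∈ Gamma0 N) (P : ℤ[X])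
    (hP : P.natDegree ≤ wt k) :
    periodLin k N g (toC P) (natDegree_toC_le hP) ∈ periodLattice k N :=
  Submodule.subset_span ⟨g, hg, P, hP, rfl⟩

lemma natDegree_X_pow_le' (m n : ℕ) (h : m ≤ n) : ((X : ℤ[X]) ^ m).natDegree ≤ n :=
  (natDegree_X_pow_le m).trans h

lemma periodLin_congr {g : SL(2, ℤ)} {P Q : ℂ[X]} (h : P = Q) (hP : P.natDegree ≤ wt k)
    (hQ : Q.natDegree ≤ wt k) : periodLin k N g P hP = periodLin k N g Q hQ := by
  subst h; rfl

/-- Reduction of all periods to those along generators against monomials. -/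
lemma periodLin_mem_of_closure (hk : 2 ≤ k) (S : Set SL(2, ℤ))
    (hS : Subgroup.closure S = Gamma0 N)
    (L : Submodule ℤ (Module.Dual ℂ (CuspForm (Gamma0 N) k)))
    (hL : ∀ s ∈ S, ∀ m (hm : m ≤ wt k),
      periodLin k N s (toC (X ^ m)) (natDegree_toC_le (natDegree_X_pow_le' m _ hm)) ∈ L)
    {g : SL(2, ℤ)} (hg : g ∈ Gamma0 N) (P : ℤ[X]) (hP : P.natDegree ≤ wt k) :
    periodLin k N g (toC P) (natDegree_toC_le hP) ∈ L := by
  rw [← hS] at hg
  induction hg using Subgroup.closure_induction generalizing P with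
  | mem s hs =>
    have : periodLin k N s (toC P) (natDegree_toC_le hP) =
        ∑ m ∈ (Finset.range (wt k + 1)).attach, (P.coeff m.1) •
          periodLin k N s (toC (X ^ m.1)) (natDegree_toC_le (natDegree_X_pow_le' m.1 _
            (Nat.lt_succ_iff.mp (Finset.mem_range.mp m.2)))) := by
      ext f
      rw [periodLin_apply, period_eq_sum_monomials f s (natDegree_toC_le hP),
        LinearMap.sum_apply, ← Finset.sum_attach]
      refine Finset.sum_congr rfl fun m _ => ?_
      rw [LinearMap.smul_apply, periodLin_apply, zsmul_eq_mul, coeff_map]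
      simp
    rw [this]
    refine Submodule.sum_mem _ fun m _ => Submodule.smul_mem _ _
      (hL s hs m.1 (Nat.lt_succ_iff.mp (Finset.mem_range.mp m.2)))
  | one =>
    have : periodLin k N 1 (toC P) (natDegree_toC_le hP) = 0 := by
      ext f
      rw [periodLin_apply, period_one f (natDegree_toC_le hP)]
      rfl
    rw [this]
    exact L.zero_mem
  | mul x y hx hy ihx ihy =>
    have hxN : x ∈ Gamma0 N := hS ▸ hx
    have hQ : (pact ℤ (wt k) (toM2 x) P).natDegree ≤ wt k := natDegree_pact_le ℤ _ _ _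
    have : periodLin k N (x * y) (toC P) (natDegree_toC_le hP) =
        periodLin k N x (toC P) (natDegree_toC_le hP) +
          periodLin k N y (toC (pact ℤ (wt k) (toM2 x) P)) (natDegree_toC_le hQ) := by
      ext f
      rw [LinearMap.add_apply, periodLin_apply, periodLin_apply, periodLin_apply,
        period_mul hk f y hxN (natDegree_toC_le hP)]
      congr 2
      exact (pact_map _ _ _).symm
    rw [this]
    exact L.add_mem (ihx P hP) (ihy _ hQ)
  | inv x hx ih =>
    have hxN : x⁻¹ ∈ Gamma0 N := (Gamma0 N).inv_mem (hS ▸ hx)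
    have hQ : (pact ℤ (wt k) (toM2 x⁻¹) P).natDegree ≤ wt k := natDegree_pact_le ℤ _ _ _
    have : periodLin k N x⁻¹ (toC P) (natDegree_toC_le hP) =
        - periodLin k N x (toC (pact ℤ (wt k) (toM2 x⁻¹) P)) (natDegree_toC_le hQ) := by
      ext f
      have h1 := period_mul hk f x hxN (natDegree_toC_le hP)
      rw [inv_mul_cancel, period_one f (natDegree_toC_le hP)] at h1
      rw [LinearMap.neg_apply, periodLin_apply, periodLin_apply]
      have h2 : toC (pact ℤ (wt k) (toM2 x⁻¹) P) = pact ℂ (wt k) (toM2 x⁻¹) (toC P) :=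
        pact_map _ _ _
      rw [h2]
      linear_combination -h1
    rw [this]
    exact L.neg_mem (ih _ hQ)


/-- The period lattice is finitely generated. -/
theorem periodLattice_fg (hk : 2 ≤ k) [NeZero N] : (periodLattice k N).FG := by
  classical
  obtain ⟨S, hS⟩ := exists_finset_closure_eq_gamma0 N
  have hSN : ∀ s ∈ S, s ∈ Gamma0 N := fun s hs => hS ▸ Subgroup.subset_closure hs
  let gen : SL(2, ℤ) × ℕ → Module.Dual ℂ (CuspForm (Gamma0 N) k) := fun sm =>
    if hm : sm.2 ≤ wt k then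
      periodLin k N sm.1 (toC (X ^ sm.2)) (natDegree_toC_le (natDegree_X_pow_le' sm.2 _ hm))
    else 0
  let T : Finset (Module.Dual ℂ (CuspForm (Gamma0 N) k)) :=
    (S ×ˢ Finset.range (wt k + 1)).image gen
  have hle : periodLattice k N ≤ Submodule.span ℤ (T : Set _) := by
    refine Submodule.span_le.mpr ?_
    rintro lam ⟨g, hg, P, hP, rfl⟩
    refine periodLin_mem_of_closure hk (S : Set SL(2, ℤ)) hS _ (fun s hs m hm => ?_) hg P hP
    refine Submodule.subset_span ?_
    rw [Finset.mem_coe, Finset.mem_image]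
    refine ⟨(s, m), Finset.mem_product.mpr ⟨hs, Finset.mem_range.mpr (Nat.lt_succ_of_le hm)⟩, ?_⟩
    simp only [gen, dif_pos hm]
  have hge : Submodule.span ℤ (T : Set _) ≤ periodLattice k N := by
    refine Submodule.span_le.mpr ?_
    intro lam hlam
    rw [Finset.mem_coe, Finset.mem_image] at hlam
    obtain ⟨⟨s, m⟩, hsm, rfl⟩ := hlam
    obtain ⟨hs, hm⟩ := Finset.mem_product.mp hsm
    have hm' : m ≤ wt k := Nat.lt_succ_iff.mp (Finset.mem_range.mp hm)
    simp only [gen, dif_pos hm']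
    exact periodLin_mem_periodLattice (hSN s hs) (X ^ m) (natDegree_X_pow_le' m _ hm')
  rw [le_antisymm hle hge]
  exact Submodule.fg_span (Finset.finite_toSet T)

/-! ### Vanishing of all periods -/

/-- If all integral periods of `f` vanish then all its periods vanish. -/
lemma period_eq_zero_of_forall (f : CuspForm (Gamma0 N) k)
    (hf : ∀ lam ∈ periodLattice k N, lam f = 0) {g : SL(2, ℤ)} (hg : g ∈ Gamma0 N) {P : ℂ[X]}
    (hP : P.natDegree ≤ wt k) : period f g P = 0 := by
  rw [period_eq_sum_monomials f g hP]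
  refine Finset.sum_eq_zero fun m hm => ?_
  have hm' : m ≤ wt k := Nat.lt_succ_iff.mp (Finset.mem_range.mp hm)
  have := hf _ (periodLin_mem_periodLattice hg (X ^ m) (natDegree_X_pow_le' m _ hm'))
  rw [periodLin_apply] at this
  have e : toC ((X : ℤ[X]) ^ m) = (X : ℂ[X]) ^ m := by simp [toC]
  rw [e] at this
  rw [this, mul_zero]

lemma mob_sub (A : M2) {z w : ℂ} (hz : den A z ≠ 0) (hw : den A w ≠ 0) :
    mob A w - mob A z = (A.det : ℂ) * (w - z) / (den A w * den A z) := by
  rw [mob, mob, div_sub_div _ _ hw hz]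
  congr 1
  rw [det_eq]
  simp only [num, den]
  push_cast
  ring

/-- If all periods of `f` vanish, the iterated primitive of `f` is invariant of weight `2 - k`. -/
theorem iprim_invariant_of_forall (hk : 2 ≤ k) (f : CuspForm (Gamma0 N) k)
    (hf : ∀ lam ∈ periodLattice k N, lam f = 0) {g : SL(2, ℤ)} (hg : g ∈ Gamma0 N) {z : ℂ}
    (hz : 0 < z.im) :
    iprim 1 (cfun f) (wt k) (mob (toM2 g) z) * den (toM2 g) z ^ wt k =
      iprim 1 (cfun f) (wt k) z := by
  have hdet : (toM2 g).det ≠ 0 := by rw [det_toM2]; exact one_ne_zero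
  have hden : den (toM2 g) z ≠ 0 := den_ne_zero hdet hz
  have hPdeg : ((X - C (mob (toM2 g) z)) ^ wt k : ℂ[X]).natDegree ≤ wt k := by
    refine (natDegree_pow_le).trans ?_
    rw [natDegree_X_sub_C, mul_one]
  -- the period of `(X - a)^n` along `g` vanishes
  have h0 := period_eq_zero_of_forall f hf hg hPdeg
  rw [← periodFun_eq_period hk f hg hPdeg hz] at h0
  simp only [periodFun] at h0
  -- compute `pact`
  have hpact : pact ℂ (wt k) (toM2 g) ((X - C (mob (toM2 g) z)) ^ wt k) =
      C ((den (toM2 g) z ^ wt k)⁻¹) * (X - C z) ^ wt k := by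
    refine eq_of_eval_eq_on_upperHalfPlane fun w hw => ?_
    have hdw : den (toM2 g) w ≠ 0 := den_ne_zero hdet hw
    rw [eval_pact _ hPdeg hdw]
    simp only [eval_pow, eval_sub, eval_X, eval_C, eval_mul]
    rw [mob_sub _ hden hdw, det_toM2, div_pow, mul_pow]
    field_simp
    simp only [Int.cast_one]
    ring
  rw [hpact, E_C_mul] at h0
  simp only [E] at h0
  rw [epr_X_sub_C_pow, epr_X_sub_C_pow] at h0
  have hne : ((-1 : ℂ) ^ wt k * ((wt k).factorial : ℂ)) ≠ 0 :=
    mul_ne_zero (pow_ne_zero _ (by norm_num)) (by exact_mod_cast (wt k).factorial_ne_zero)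
  have hdn : den (toM2 g) z ^ wt k ≠ 0 := pow_ne_zero _ hden
  have h1 : (-1 : ℂ) ^ wt k * ((wt k).factorial : ℂ) *
      (iprim 1 (cfun f) (wt k) (mob (toM2 g) z) * den (toM2 g) z ^ wt k -
        iprim 1 (cfun f) (wt k) z) = 0 := by
    have := congrArg (fun t => t * den (toM2 g) z ^ wt k) h0
    simp only [zero_mul, sub_mul] at this
    rw [← this]
    field_simp
  rcases mul_eq_zero.mp h1 with h2 | h2
  · exact absurd h2 hne
  · exact sub_eq_zero.mp h2

end Fermat.Agent.S22.Alt88
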