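import Mathlib
import Fermat.Agent.S22.Alt88.Period
import Fermat.Prelude.Def_CuspForm_HeckeAlgebra

/-!
Stability of the period lattice under the Hecke operators.
-/

set_option autoImplicit false

namespace Fermat.Agent.S22.Alt88

open Complex Filter Function Topology Set Polynomial CongruenceSubgroup ModularForm
open UpperHalfPlane hiding I
open scoped Real MatrixGroups

variable {N : ℕ} {k : ℤ}

/-- Upper triangular integer matrix. -/
abbrev ut (a b d : ℤ) : M2 := !![a, b; 0, d]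

lemma det_ut (a b d : ℤ) : (ut a b d).det = a * d := by
  rw [det_eq]; simp [ut]

lemma mob_ut (a b d : ℤ) (z : ℂ) : mob (ut a b d) z = ((a : ℂ) * z + b) / d := by
  simp [mob, num, den, ut]

lemma den_ut (a b d : ℤ) (z : ℂ) : den (ut a b d) z = d := by
  simp [den, ut]

lemma mob_ut_im (a b d : ℤ) (z : ℂ) : (mob (ut a b d) z).im = a * z.im / d := by
  rw [im_mob, det_ut, den_ut]
  rcases eq_or_ne d 0 with rfl | hd
  · simp
  · have : ((d : ℤ) : ℝ) ≠ 0 := by exact_mod_cast hd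
    rw [← Complex.ofReal_intCast, Complex.normSq_ofReal]
    push_cast
    field_simp

lemma mob_ut_re (a b d : ℤ) (z : ℂ) : (mob (ut a b d) z).re = (a * z.re + b) / d := by
  rw [mob_ut]
  have : ((a : ℂ) * z + b) / d = (((a : ℂ) * z + b)) * ((d : ℝ) : ℂ)⁻¹ := by
    rw [div_eq_mul_inv]; simp
  rw [this, ← Complex.ofReal_inv, Complex.re_mul_ofReal]
  simp [div_eq_mul_inv]

lemma tendsto_mob_ut_stripF {a b d : ℤ} (ha : 0 < a) (hd : 0 < d) (A : ℝ) :
    Tendsto (mob (ut a b d)) (stripF A) (stripF ((a * A + |(b : ℝ)|) / d)) := by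
  have ha' : (0 : ℝ) < a := by exact_mod_cast ha
  have hd' : (0 : ℝ) < d := by exact_mod_cast hd
  rw [stripF, stripF, tendsto_inf]
  constructor
  · rw [tendsto_comap_iff]
    have h1 : Tendsto (fun z : ℂ => z.im) (comap Complex.im atTop ⊓ 𝓟 {z : ℂ | |z.re| ≤ A}) atTop :=
      (tendsto_comap (f := Complex.im)).mono_left inf_le_left
    have h2 : Tendsto (fun y : ℝ => (a : ℝ) * y / d) atTop atTop :=
      (tendsto_id.const_mul_atTop ha').atTop_div_const hd'
    refine (h2.comp h1).congr fun z => ?_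
    simp only [Function.comp_apply, mob_ut_im]
  · rw [tendsto_principal]
    have hev : ∀ᶠ z in (comap Complex.im atTop ⊓ 𝓟 {z : ℂ | |z.re| ≤ A}), |z.re| ≤ A :=
      eventually_stripF_re A
    filter_upwards [hev] with z hz
    show |(mob (ut a b d) z).re| ≤ _
    rw [mob_ut_re, abs_div, abs_of_pos hd']
    gcongr
    calc |(a : ℝ) * z.re + b| ≤ |(a : ℝ) * z.re| + |(b : ℝ)| := abs_add_le _ _
      _ = a * |z.re| + |(b : ℝ)| := by rw [abs_mul, abs_of_pos ha']
      _ ≤ a * A + |(b : ℝ)| := by gcongr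

/-- The derivative of one term in the Hecke formula for the Eichler primitive. -/
lemma term_hasDerivAt (f : CuspForm (Gamma0 N) k) {P : ℂ[X]} (hP : P.natDegree ≤ wt k)
    {a b d : ℤ} (ha : 0 < a) (hd : 0 < d) {z : ℂ} (hz : 0 < z.im) :
    HasDerivAt (fun w => E f (pact ℂ (wt k) (ut d (-b) a) P) (mob (ut a b d) w))
      (cfun f (mob (ut a b d) z) * P.eval z * ((a : ℂ) ^ (wt k + 1) / d)) z := by
  have hdet : 0 < (ut a b d).det := by rw [det_ut]; positivity
  have ha' : (a : ℂ) ≠ 0 := by exact_mod_cast ha.ne'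
  have hd' : (d : ℂ) ≠ 0 := by exact_mod_cast hd.ne'
  have hden : den (ut a b d) z ≠ 0 := den_ne_zero hdet.ne' hz
  have hmem : 0 < (mob (ut a b d) z).im := mob_mem hdet hz
  have h1 := (E_hasDerivAt f (natDegree_pact_le ℂ (wt k) (ut d (-b) a) P) hmem).comp z
    (hasDerivAt_mob (ut a b d) hden)
  refine h1.congr_deriv ?_
  have hden' : den (ut d (-b) a) (mob (ut a b d) z) ≠ 0 := by rw [den_ut]; exact ha'
  rw [eval_pact _ hP hden', den_ut, den_ut, det_ut, mob_ut, mob_ut]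
  have : ((d : ℂ) * (((a : ℂ) * z + b) / d) + ((-b : ℤ) : ℂ)) / a = z := by
    push_cast
    field_simp
    ring
  rw [this]
  push_cast
  field_simp
  ring

lemma term_tendsto (f : CuspForm (Gamma0 N) k) (Q : ℂ[X]) {a b d : ℤ} (ha : 0 < a) (hd : 0 < d)
    (A : ℝ) : Tendsto (fun w => E f Q (mob (ut a b d) w)) (stripF A) (𝓝 0) :=
  (E_tendsto f Q _).comp (tendsto_mob_ut_stripF ha hd A)


lemma cfun_heckeMatrix (f : CuspForm (Gamma0 N) k) {p : ℕ} (hp : p ≠ 0) (j : ℕ) {z : ℂ}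
    (hz : 0 < z.im) :
    f (heckeMatrix p j • (⟨z, hz⟩ : ℍ)) = cfun f (mob (ut 1 j p) z) := by
  have hmem : 0 < (mob (ut 1 j p) z).im :=
    mob_mem (by rw [det_ut]; have : 0 < p := Nat.pos_of_ne_zero hp; positivity) hz
  rw [cfun_apply f hmem]
  congr 1
  ext
  change _ = mob (ut 1 j p) z
  rw [coe_heckeMatrix_smul hp, mob_ut]
  simp

lemma cfun_heckeDiagMatrix (f : CuspForm (Gamma0 N) k) {p : ℕ} (hp : p ≠ 0) {z : ℂ}
    (hz : 0 < z.im) :
    f (heckeDiagMatrix p • (⟨z, hz⟩ : ℍ)) = cfun f (mob (ut p 0 1) z) := by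
  have hmem : 0 < (mob (ut p 0 1) z).im :=
    mob_mem (by rw [det_ut]; have : 0 < p := Nat.pos_of_ne_zero hp; positivity) hz
  rw [cfun_apply f hmem]
  congr 1
  ext
  change _ = mob (ut p 0 1) z
  rw [coe_heckeDiagMatrix_smul hp, mob_ut]
  simp

lemma cfun_heckeU [NeZero N] {p : ℕ} (hp : p ≠ 0) (hpN : p ∣ N) (f : CuspForm (Gamma0 N) k)
    {z : ℂ} (hz : 0 < z.im) :
    cfun (CuspForm.heckeULin k hpN f) z =
      (p : ℂ)⁻¹ * ∑ j ∈ Finset.range p, cfun f (mob (ut 1 j p) z) := by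
  rw [cfun_apply _ hz, CuspForm.heckeULin_apply_apply, heckeU_apply k hp]
  congr 1
  refine Finset.sum_congr rfl fun j _ => ?_
  exact cfun_heckeMatrix f hp j hz

lemma cfun_heckeT {p : ℕ} (hp : p.Prime) (hpN : ¬ p ∣ N) (f : CuspForm (Gamma0 N) k)
    {z : ℂ} (hz : 0 < z.im) :
    cfun (CuspForm.heckeTLin k hp hpN f) z =
      (p : ℂ)⁻¹ * ∑ j ∈ Finset.range p, cfun f (mob (ut 1 j p) z) +
        (p : ℂ) ^ (k - 1) * cfun f (mob (ut p 0 1) z) := by
  rw [cfun_apply _ hz, CuspForm.heckeTLin_apply_apply, heckeT_apply k hp.ne_zero]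
  congr 1
  · congr 1
    refine Finset.sum_congr rfl fun j _ => ?_
    exact cfun_heckeMatrix f hp.ne_zero j hz
  · congr 1
    exact cfun_heckeDiagMatrix f hp.ne_zero hz

/-- The Eichler primitive of `U_p f`. -/
theorem E_heckeU [NeZero N] {p : ℕ} (hp : p ≠ 0) (hpN : p ∣ N) (f : CuspForm (Gamma0 N) k)
    {P : ℂ[X]} (hP : P.natDegree ≤ wt k) {z : ℂ} (hz : 0 < z.im) :
    E (CuspForm.heckeULin k hpN f) P z =
      ∑ j ∈ Finset.range p, E f (pact ℂ (wt k) (ut p (-(j : ℤ)) 1) P) (mob (ut 1 j p) z) := by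
  have hp' : (0 : ℤ) < p := by exact_mod_cast Nat.pos_of_ne_zero hp
  have hpc : (p : ℂ) ≠ 0 := by exact_mod_cast hp
  symm
  refine E_unique (CuspForm.heckeULin k hpN f) hP
    (G := fun w => ∑ j ∈ Finset.range p,
      E f (pact ℂ (wt k) (ut p (-(j : ℤ)) 1) P) (mob (ut 1 j p) w)) (fun w hw => ?_) le_rfl ?_ hz
  · have h1 := HasDerivAt.fun_sum (u := Finset.range p) fun j _ =>
      term_hasDerivAt f hP (a := 1) (b := j) (d := p) one_pos hp' hw
    refine h1.congr_deriv ?_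
    rw [cfun_heckeU hp hpN f hw, Finset.mul_sum, Finset.sum_mul]
    refine Finset.sum_congr rfl fun j _ => ?_
    push_cast
    rw [one_pow]
    field_simp
  · have := tendsto_finsetSum (Finset.range p) fun j _ =>
      term_tendsto f (pact ℂ (wt k) (ut p (-(j : ℤ)) 1) P) (a := 1) (b := j) (d := p) one_pos hp' 0
    simpa using this

/-- The Eichler primitive of `T_p f`. -/
theorem E_heckeT (hk : 2 ≤ k) {p : ℕ} (hp : p.Prime) (hpN : ¬ p ∣ N)
    (f : CuspForm (Gamma0 N) k) {P : ℂ[X]} (hP : P.natDegree ≤ wt k) {z : ℂ} (hz : 0 < z.im) :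
    E (CuspForm.heckeTLin k hp hpN f) P z =
      ∑ j ∈ Finset.range p, E f (pact ℂ (wt k) (ut p (-(j : ℤ)) 1) P) (mob (ut 1 j p) z) +
        E f (pact ℂ (wt k) (ut 1 (-0) p) P) (mob (ut p 0 1) z) := by
  have hp' : (0 : ℤ) < p := by exact_mod_cast hp.pos
  have hpc : (p : ℂ) ≠ 0 := by exact_mod_cast hp.ne_zero
  symm
  refine E_unique (CuspForm.heckeTLin k hp hpN f) hP
    (G := fun w => ∑ j ∈ Finset.range p,
      E f (pact ℂ (wt k) (ut p (-(j : ℤ)) 1) P) (mob (ut 1 j p) w) +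
        E f (pact ℂ (wt k) (ut 1 (-0) p) P) (mob (ut p 0 1) w)) (fun w hw => ?_) le_rfl ?_ hz
  · have h1 := HasDerivAt.fun_sum (u := Finset.range p) fun j _ =>
      term_hasDerivAt f hP (a := 1) (b := j) (d := p) one_pos hp' hw
    have h2 := term_hasDerivAt f hP (a := p) (b := 0) (d := 1) hp' one_pos hw
    refine (h1.add h2).congr_deriv ?_
    rw [cfun_heckeT hp hpN f hw, add_mul, Finset.mul_sum, Finset.sum_mul]
    congr 1
    · refine Finset.sum_congr rfl fun j _ => ?_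
      push_cast
      rw [one_pow]
      field_simp
    · have hk' : k - 1 = ((wt k + 1 : ℕ) : ℤ) := by
        push_cast; rw [wt_cast hk]; ring
      rw [hk', zpow_natCast]
      push_cast
      ring
  · have h1 := tendsto_finsetSum (Finset.range p) fun j _ =>
      term_tendsto f (pact ℂ (wt k) (ut p (-(j : ℤ)) 1) P) (a := 1) (b := j) (d := p) one_pos hp' 0
    have h2 := term_tendsto f (pact ℂ (wt k) (ut 1 (-0) p) P) (a := p) (b := 0) (d := 1)
      hp' one_pos 0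
    simpa using h1.add h2


/-! ### The abstract Hecke computation -/

lemma ut_mul_adj (a b d : ℤ) : ut d (-b) a * ut a b d = (a * d) • (1 : M2) := by
  ext i j
  fin_cases i <;> fin_cases j <;> simp [ut, Matrix.mul_apply, Fin.sum_univ_two] <;> ring

lemma ut_adj_mul (a b d : ℤ) : ut a b d * ut d (-b) a = (a * d) • (1 : M2) := by
  ext i j
  fin_cases i <;> fin_cases j <;> simp [ut, Matrix.mul_apply, Fin.sum_univ_two] <;> ring

/-- From `α g = g' β` deduce `g β' = α' g'` for the adjugates. -/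
lemma adj_identity {a b d a₂ b₂ d₂ D : ℤ} (hD : D ≠ 0) (h1 : a * d = D) (h2 : a₂ * d₂ = D)
    {G G' : M2} (h : ut a b d * G = G' * ut a₂ b₂ d₂) :
    G * ut d₂ (-b₂) a₂ = ut d (-b) a * G' := by
  have e1 : D • (G * ut d₂ (-b₂) a₂) = D • (ut d (-b) a * G') := by
    calc D • (G * ut d₂ (-b₂) a₂) = (ut d (-b) a * ut a b d) * G * ut d₂ (-b₂) a₂ := by
          rw [ut_mul_adj, h1, Matrix.smul_mul, Matrix.one_mul, Matrix.smul_mul]
      _ = ut d (-b) a * (ut a b d * G) * ut d₂ (-b₂) a₂ := by simp only [Matrix.mul_assoc]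
      _ = ut d (-b) a * G' * (ut a₂ b₂ d₂ * ut d₂ (-b₂) a₂) := by
          rw [h]; simp only [Matrix.mul_assoc]
      _ = D • (ut d (-b) a * G') := by
          rw [ut_adj_mul, h2, Matrix.mul_smul, Matrix.mul_one]
  exact smul_right_injective M2 hD e1

theorem period_hecke_abstract (hk : 2 ≤ k) {ι : Type*} [Fintype ι]
    (f f' : CuspForm (Gamma0 N) k) (a b d : ι → ℤ) {D : ℤ} (hD : 0 < D)
    (had : ∀ x, a x * d x = D)
    (hE : ∀ (P : ℂ[X]), P.natDegree ≤ wt k → ∀ z : ℂ, 0 < z.im →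
      E f' P z = ∑ x, E f (pact ℂ (wt k) (ut (d x) (-(b x)) (a x)) P)
        (mob (ut (a x) (b x) (d x)) z))
    {g : SL(2, ℤ)} (σ : Equiv.Perm ι) (g' : ι → SL(2, ℤ))
    (hg' : ∀ x, g' x ∈ Gamma0 N)
    (hmat : ∀ x, ut (a x) (b x) (d x) * toM2 g =
      toM2 (g' x) * ut (a (σ x)) (b (σ x)) (d (σ x)))
    {P : ℂ[X]} (hP : P.natDegree ≤ wt k) :
    period f' g P = ∑ x, period f (g' x) (pact ℂ (wt k) (ut (d x) (-(b x)) (a x)) P) := by
  have hdetg : (0 : ℤ) < (toM2 g).det := by rw [det_toM2]; exact one_pos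
  have hdetα : ∀ x, (0 : ℤ) < (ut (a x) (b x) (d x)).det := fun x => by
    rw [det_ut, had]; exact hD
  have hdetα' : ∀ x, (0 : ℤ) < (ut (d x) (-(b x)) (a x)).det := fun x => by
    rw [det_ut, mul_comm, had]; exact hD
  have hdetg' : ∀ x, (0 : ℤ) < (toM2 (g' x)).det := fun x => by rw [det_toM2]; exact one_pos
  have hI := I_im_pos
  have hgI := mob_I_im_pos g
  have e0 : period f' g P = E f' P (mob (toM2 g) I) - E f' (pact ℂ (wt k) (toM2 g) P) I := rfl
  rw [e0, hE P hP _ hgI, hE _ (natDegree_pact_le ℂ (wt k) (toM2 g) P) _ hI]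
  have e1 : ∑ x, E f (pact ℂ (wt k) (ut (d x) (-(b x)) (a x)) (pact ℂ (wt k) (toM2 g) P))
      (mob (ut (a x) (b x) (d x)) I) =
      ∑ x, E f (pact ℂ (wt k) (ut (d (σ x)) (-(b (σ x))) (a (σ x))) (pact ℂ (wt k) (toM2 g) P))
      (mob (ut (a (σ x)) (b (σ x)) (d (σ x))) I) :=
    (Equiv.sum_comp σ (fun x => E f (pact ℂ (wt k) (ut (d x) (-(b x)) (a x))
      (pact ℂ (wt k) (toM2 g) P)) (mob (ut (a x) (b x) (d x)) I))).symm
  rw [e1, ← Finset.sum_sub_distrib]
  refine Finset.sum_congr rfl fun x _ => ?_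
  have hwpos : 0 < (mob (ut (a (σ x)) (b (σ x)) (d (σ x))) I).im := mob_mem (hdetα (σ x)) hI
  have hQ : (pact ℂ (wt k) (ut (d x) (-(b x)) (a x)) P).natDegree ≤ wt k :=
    natDegree_pact_le ℂ _ _ _
  rw [← periodFun_eq_period hk f (hg' x) hQ hwpos, periodFun]
  have p1 : mob (ut (a x) (b x) (d x)) (mob (toM2 g) I) =
      mob (toM2 (g' x)) (mob (ut (a (σ x)) (b (σ x)) (d (σ x))) I) := by
    rw [← mob_mul _ _ _ (den_ne_zero hdetg.ne' hI), hmat x,
      mob_mul _ _ _ (den_ne_zero (hdetα (σ x)).ne' hI)]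
  have p2 : pact ℂ (wt k) (ut (d (σ x)) (-(b (σ x))) (a (σ x))) (pact ℂ (wt k) (toM2 g) P) =
      pact ℂ (wt k) (toM2 (g' x)) (pact ℂ (wt k) (ut (d x) (-(b x)) (a x)) P) := by
    rw [← pact_mul_complex hdetg (hdetα' (σ x)) hP,
      adj_identity hD.ne' (had x) (had (σ x)) (hmat x),
      pact_mul_complex (hdetα' x) (hdetg' x) hP]
  rw [p1, p2]


/-! ### From `GL(2, ℝ)` identities to integer matrices -/

lemma toM2_eq_of_GL {A B : M2} {g g' : SL(2, ℤ)} {GA GB : GL (Fin 2) ℝ}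
    (hA : (GA : Matrix (Fin 2) (Fin 2) ℝ) = A.map (Int.cast : ℤ → ℝ))
    (hB : (GB : Matrix (Fin 2) (Fin 2) ℝ) = B.map (Int.cast : ℤ → ℝ))
    (h : GA * Matrix.SpecialLinearGroup.mapGL ℝ g = Matrix.SpecialLinearGroup.mapGL ℝ g' * GB) :
    A * toM2 g = toM2 g' * B := by
  have h1 : (GA : Matrix (Fin 2) (Fin 2) ℝ) *
      ((Matrix.SpecialLinearGroup.mapGL ℝ g : GL (Fin 2) ℝ) : Matrix (Fin 2) (Fin 2) ℝ) =
      ((Matrix.SpecialLinearGroup.mapGL ℝ g' : GL (Fin 2) ℝ) : Matrix (Fin 2) (Fin 2) ℝ) *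
        (GB : Matrix (Fin 2) (Fin 2) ℝ) := by
    have := congrArg (fun M : GL (Fin 2) ℝ => (M : Matrix (Fin 2) (Fin 2) ℝ)) h
    simpa only [Matrix.GeneralLinearGroup.coe_mul] using this
  have h2 : ∀ g : SL(2, ℤ),
      ((Matrix.SpecialLinearGroup.mapGL ℝ g : GL (Fin 2) ℝ) : Matrix (Fin 2) (Fin 2) ℝ) =
      (toM2 g).map (Int.cast : ℤ → ℝ) := fun g => rfl
  rw [h2, h2, hA, hB] at h1
  have h3 : (A * toM2 g).map (Int.cast : ℤ → ℝ) = (toM2 g' * B).map (Int.cast : ℤ → ℝ) := by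
    rw [Matrix.map_mul_intCast, Matrix.map_mul_intCast]
    exact h1
  exact Matrix.map_injective Int.cast_injective h3

lemma val_heckeMatrix_eq {p : ℕ} (hp : p ≠ 0) (j : ℕ) :
    ((heckeMatrix p j : GL (Fin 2) ℝ) : Matrix (Fin 2) (Fin 2) ℝ) =
      (ut 1 j p).map (Int.cast : ℤ → ℝ) := by
  rw [val_heckeMatrix hp]
  ext i j
  fin_cases i <;> fin_cases j <;> simp [ut]

lemma val_heckeDiagMatrix_eq {p : ℕ} (hp : p ≠ 0) :
    ((heckeDiagMatrix p : GL (Fin 2) ℝ) : Matrix (Fin 2) (Fin 2) ℝ) =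
      (ut p 0 1).map (Int.cast : ℤ → ℝ) := by
  rw [val_heckeDiagMatrix hp]
  ext i j
  fin_cases i <;> fin_cases j <;> simp [ut]


/-! ### The operator `U_p` -/

section heckeU

open P2MW.S_ModularForm_heckeT_slash_eq_self_of_mem_Gamma0.ModularForm.HeckeSlashInvariance

lemma dvd_of_mem_Gamma0 {g : SL(2, ℤ)} (hg : g ∈ Gamma0 N) : (N : ℤ) ∣ g 1 0 :=
  (ZMod.intCast_zmod_eq_zero_iff_dvd _ _).mp (Gamma0_mem.mp hg)

lemma mem_Gamma0_of_dvd {g : SL(2, ℤ)} (hg : (N : ℤ) ∣ g 1 0) : g ∈ Gamma0 N :=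
  Gamma0_mem.mpr ((ZMod.intCast_zmod_eq_zero_iff_dvd _ _).mpr hg)

/-- The periods of `U_p f` are sums of periods of `f`; the group elements `g' x` do not depend
on `f` or `P`. -/
theorem period_heckeU (hk : 2 ≤ k) [NeZero N] {p : ℕ} [NeZero p] (hpN : p ∣ N) {g : SL(2, ℤ)}
    (hg : g ∈ Gamma0 N) :
    ∃ g' : ZMod p → SL(2, ℤ), (∀ x, g' x ∈ Gamma0 N) ∧
      ∀ (f : CuspForm (Gamma0 N) k) (P : ℂ[X]), P.natDegree ≤ wt k →
        period (CuspForm.heckeULin k hpN f) g P =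
          ∑ x : ZMod p, period f (g' x) (pact ℂ (wt k) (ut p (-((x.val : ℕ) : ℤ)) 1) P) := by
  have hp : p ≠ 0 := NeZero.ne p
  have hcN : (N : ℤ) ∣ g 1 0 := dvd_of_mem_Gamma0 hg
  have hc : (p : ℤ) ∣ g 1 0 := (Int.natCast_dvd_natCast.mpr hpN).trans hcN
  have hc0 : ((g 1 0 : ℤ) : ZMod p) = 0 := (ZMod.intCast_zmod_eq_zero_iff_dvd _ _).mpr hc
  choose g' h1 h2 using fun x : ZMod p => heckeMatrix_mul_of_dvd g hc x
  have hg' : ∀ x, g' x ∈ Gamma0 N := fun x =>
    mem_Gamma0_of_dvd (by rw [h1 x]; exact Dvd.dvd.mul_left hcN _)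
  refine ⟨g', hg', fun f P hP => ?_⟩
  have hD : (0 : ℤ) < p := by exact_mod_cast Nat.pos_of_ne_zero hp
  refine period_hecke_abstract hk f (CuspForm.heckeULin k hpN f) (fun _ => 1)
    (fun x : ZMod p => ((x.val : ℕ) : ℤ)) (fun _ => (p : ℤ)) hD (fun _ => one_mul _) ?_
    (affinePerm g hc0) g' hg' ?_ hP
  · intro Q hQ z hz
    rw [E_heckeU hp hpN f hQ hz]
    exact sum_range_eq_sum_zmod _
  · intro x
    exact toM2_eq_of_GL (val_heckeMatrix_eq hp _) (val_heckeMatrix_eq hp _) (h2 x)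

end heckeU

/-! ### The operator `T_p` -/

section heckeT

open P2MW.S_ModularForm_heckeT_slash_eq_self_of_mem_Gamma0.ModularForm.HeckeSlashInvariance

/-- Entries of the coset representatives indexed by `ℙ¹(𝔽_p)`. -/
def repA (p : ℕ) (x : OnePoint (ZMod p)) : ℤ := x.elim (p : ℤ) (fun _ => 1)

/-- Entries of the coset representatives indexed by `ℙ¹(𝔽_p)`. -/
def repB (p : ℕ) (x : OnePoint (ZMod p)) : ℤ := x.elim 0 (fun j => ((j.val : ℕ) : ℤ))

/-- Entries of the coset representatives indexed by `ℙ¹(𝔽_p)`. -/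
def repD (p : ℕ) (x : OnePoint (ZMod p)) : ℤ := x.elim 1 (fun _ => (p : ℤ))

lemma val_heckeRep_eq {p : ℕ} (hp : p ≠ 0) (x : OnePoint (ZMod p)) :
    ((heckeRep p x : GL (Fin 2) ℝ) : Matrix (Fin 2) (Fin 2) ℝ) =
      (ut (repA p x) (repB p x) (repD p x)).map (Int.cast : ℤ → ℝ) := by
  induction x using OnePoint.rec with
  | infty => exact val_heckeDiagMatrix_eq hp
  | coe j => exact val_heckeMatrix_eq hp _

lemma repA_mul_repD (p : ℕ) (x : OnePoint (ZMod p)) : repA p x * repD p x = p := by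
  induction x using OnePoint.rec with
  | infty => simp [repA, repD]
  | coe j => simp [repA, repD]

/-- The periods of `T_p f` are sums of periods of `f`; the group elements `g' x` do not depend
on `f` or `P`. -/
theorem period_heckeT (hk : 2 ≤ k) {p : ℕ} [Fact p.Prime] [NeZero p] (hp : p.Prime)
    (hpN : ¬ p ∣ N) {g : SL(2, ℤ)} (hg : g ∈ Gamma0 N) :
    ∃ g' : OnePoint (ZMod p) → SL(2, ℤ), (∀ x, g' x ∈ Gamma0 N) ∧
      ∀ (f : CuspForm (Gamma0 N) k) (P : ℂ[X]), P.natDegree ≤ wt k →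
        period (CuspForm.heckeTLin k hp hpN f) g P =
          ∑ x : OnePoint (ZMod p), period f (g' x)
            (pact ℂ (wt k) (ut (repD p x) (-(repB p x)) (repA p x)) P) := by
  have hcN : (N : ℤ) ∣ g 1 0 := dvd_of_mem_Gamma0 hg
  choose g' h1 h2 using fun x : OnePoint (ZMod p) => heckeRep_mul hpN g hcN x
  have hg' : ∀ x, g' x ∈ Gamma0 N := fun x => mem_Gamma0_of_dvd (h1 x)
  refine ⟨g', hg', fun f P hP => ?_⟩
  have hD : (0 : ℤ) < p := by exact_mod_cast hp.pos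
  refine period_hecke_abstract hk f (CuspForm.heckeTLin k hp hpN f) (repA p) (repB p) (repD p)
    hD (repA_mul_repD p) ?_ (MulAction.toPerm (redMatrix p g)) g' hg' ?_ hP
  · intro Q hQ z hz
    rw [E_heckeT hk hp hpN f hQ hz, sum_range_eq_sum_zmod, add_comm]
    exact (Fintype.sum_option (fun x : OnePoint (ZMod p) =>
      E f (pact ℂ (wt k) (ut (repD p x) (-(repB p x)) (repA p x)) Q)
        (mob (ut (repA p x) (repB p x) (repD p x)) z))).symm
  · intro x
    exact toM2_eq_of_GL (val_heckeRep_eq hp.ne_zero _) (val_heckeRep_eq hp.ne_zero _) (h2 x)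

end heckeT

/-! ### Stability of the period lattice -/

lemma comp_mem_periodLattice_of_generators
    (T : CuspForm (Gamma0 N) k →ₗ[ℂ] CuspForm (Gamma0 N) k)
    (h : ∀ lam ∈ periodSet k N, lam.comp T ∈ periodLattice k N) :
    ∀ lam ∈ periodLattice k N, lam.comp T ∈ periodLattice k N := by
  intro lam hlam
  induction hlam using Submodule.span_induction with
  | mem x hx => exact h x hx
  | zero => rw [LinearMap.zero_comp]; exact (periodLattice k N).zero_mem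
  | add x y _ _ hx hy => rw [LinearMap.add_comp]; exact (periodLattice k N).add_mem hx hy
  | smul c x _ hx => rw [LinearMap.smul_comp]; exact (periodLattice k N).smul_mem c hx

lemma sum_periodLin_mem {ι : Type*} [Fintype ι] (g' : ι → SL(2, ℤ)) (hg' : ∀ x, g' x ∈ Gamma0 N)
    (A : ι → M2) (P₀ : ℤ[X])
    (T : CuspForm (Gamma0 N) k →ₗ[ℂ] CuspForm (Gamma0 N) k) (g : SL(2, ℤ))
    (hP : (toC P₀).natDegree ≤ wt k)
    (h : ∀ f : CuspForm (Gamma0 N) k, period (T f) g (toC P₀) =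
      ∑ x, period f (g' x) (pact ℂ (wt k) (A x) (toC P₀))) :
    (periodLin k N g (toC P₀) hP).comp T ∈ periodLattice k N := by
  have hQ : ∀ x, (pact ℤ (wt k) (A x) P₀).natDegree ≤ wt k := fun x => natDegree_pact_le ℤ _ _ _
  have : (periodLin k N g (toC P₀) hP).comp T =
      ∑ x, periodLin k N (g' x) (toC (pact ℤ (wt k) (A x) P₀)) (natDegree_toC_le (hQ x)) := by
    ext f
    rw [LinearMap.comp_apply, periodLin_apply, h f, LinearMap.sum_apply]
    refine Finset.sum_congr rfl fun x _ => ?_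
    rw [periodLin_apply]
    congr 1
    exact (pact_map _ _ _).symm
  rw [this]
  exact Submodule.sum_mem _ fun x _ => periodLin_mem_periodLattice (hg' x) _ (hQ x)

theorem periodLattice_stable_U (hk : 2 ≤ k) [NeZero N] {q : ℕ} (hqN : q ∣ N) :
    ∀ lam ∈ periodLattice k N, lam.comp (CuspForm.heckeULin k hqN) ∈ periodLattice k N := by
  have hq : q ≠ 0 := fun h => NeZero.ne N (by rw [h, zero_dvd_iff] at hqN; exact hqN)
  have : NeZero q := ⟨hq⟩
  refine comp_mem_periodLattice_of_generators _ ?_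
  rintro lam ⟨g, hg, P₀, hP₀, rfl⟩
  obtain ⟨g', hg', h⟩ := period_heckeU (k := k) hk hqN hg
  exact sum_periodLin_mem g' hg' (fun x => ut q (-((x.val : ℕ) : ℤ)) 1) P₀ _ g _
    (fun f => h f (toC P₀) (natDegree_toC_le hP₀))

theorem periodLattice_stable_T (hk : 2 ≤ k) {l : ℕ} (hl : l.Prime) (hlN : ¬ l ∣ N) :
    ∀ lam ∈ periodLattice k N, lam.comp (CuspForm.heckeTLin k hl hlN) ∈ periodLattice k N := by
  have : Fact l.Prime := ⟨hl⟩
  have : NeZero l := ⟨hl.ne_zero⟩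
  refine comp_mem_periodLattice_of_generators _ ?_
  rintro lam ⟨g, hg, P₀, hP₀, rfl⟩
  obtain ⟨g', hg', h⟩ := period_heckeT (k := k) hk hl hlN hg
  exact sum_periodLin_mem g' hg' (fun x => ut (repD l x) (-(repB l x)) (repA l x)) P₀ _ g _
    (fun f => h f (toC P₀) (natDegree_toC_le hP₀))

end Fermat.Agent.S22.Alt88
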