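import Mathlib

open UpperHalfPlane hiding I
open Real Complex
open scoped Manifold MatrixGroups ModularForm Topology
open Derivative

namespace Fermat.Agent.S22.Alt88.InjBol

noncomputable section

/-- iterates of the normalized derivative preserve holomorphy -/
theorem mdiff_iterate {F : ℍ → ℂ} (hF : MDiff F) (m : ℕ) : MDiff (D^[m] F) := by
  induction m generalizing F with
  | zero => simpa using hF
  | succ m ih =>
    rw [Function.iterate_succ_apply]
    exact ih (normalizedDerivOfComplex_mdifferentiable hF)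

theorem iterate_add {F G : ℍ → ℂ} (hF : MDiff F) (hG : MDiff G) (m : ℕ) :
    D^[m] (F + G) = D^[m] F + D^[m] G := by
  induction m generalizing F G with
  | zero => simp
  | succ m ih =>
    rw [Function.iterate_succ_apply, Function.iterate_succ_apply, Function.iterate_succ_apply,
      normalizedDerivOfComplex_add F G hF hG,
      ih (normalizedDerivOfComplex_mdifferentiable hF) (normalizedDerivOfComplex_mdifferentiable hG)]

theorem iterate_sub {F G : ℍ → ℂ} (hF : MDiff F) (hG : MDiff G) (m : ℕ) :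
    D^[m] (F - G) = D^[m] F - D^[m] G := by
  induction m generalizing F G with
  | zero => simp
  | succ m ih =>
    rw [Function.iterate_succ_apply, Function.iterate_succ_apply, Function.iterate_succ_apply,
      normalizedDerivOfComplex_sub F G hF hG,
      ih (normalizedDerivOfComplex_mdifferentiable hF) (normalizedDerivOfComplex_mdifferentiable hG)]

theorem iterate_smul (c : ℂ) {F : ℍ → ℂ} (hF : MDiff F) (m : ℕ) :
    D^[m] (c • F) = c • D^[m] F := by
  induction m generalizing F with
  | zero => simp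
  | succ m ih =>
    rw [Function.iterate_succ_apply, Function.iterate_succ_apply,
      normalizedDerivOfComplex_smul c F hF, ih (normalizedDerivOfComplex_mdifferentiable hF)]

/-- Leibniz rule for a product with a factor whose derivative is constant. -/
theorem iterate_succ_mul_of_D_const {j H : ℍ → ℂ} (hj : MDiff j) (hH : MDiff H) (c : ℂ)
    (hjc : D j = fun _ => c) (m : ℕ) :
    D^[m + 1] (j * H) = j * D^[m + 1] H + ((m + 1 : ℕ) * c) • D^[m] H := by
  induction m generalizing H with
  | zero =>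
    simp only [Function.iterate_one, Function.iterate_zero, id_eq, zero_add, Nat.cast_one, one_mul]
    rw [normalizedDerivOfComplex_mul j H hj hH, hjc]
    ext z
    simp [mul_comm]
    ring
  | succ m ih =>
    have hDH : MDiff (D H) := normalizedDerivOfComplex_mdifferentiable hH
    have hcH : MDiff ((fun _ : ℍ => c) * H) := by
      have : ((fun _ : ℍ => c) * H) = c • H := by ext z; simp
      rw [this]
      exact hH.const_smul c
    rw [Function.iterate_succ_apply, normalizedDerivOfComplex_mul j H hj hH, hjc,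
      iterate_add hcH (hj.mul hDH), ih hDH]
    have h1 : ((fun _ : ℍ => c) * H) = c • H := by ext z; simp
    rw [h1, iterate_smul c hH]
    rw [Function.iterate_succ_apply (f := D) (n := m + 1) (x := H)]
    rw [Function.iterate_succ_apply (f := D) (n := m) (x := H)]
    ext z
    simp only [Pi.add_apply, Pi.smul_apply, Pi.mul_apply, smul_eq_mul]
    push_cast
    ring

/-- the automorphy factor as a function on the upper half plane -/
def jfun (γ : SL(2, ℤ)) : ℍ → ℂ := fun z => denom (γ : GL (Fin 2) ℝ) z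

theorem mdiff_jfun (γ : SL(2, ℤ)) : MDiff (jfun γ) := mdifferentiable_denom _

theorem D_jfun (γ : SL(2, ℤ)) : D (jfun γ) = fun _ => (2 * π * I)⁻¹ * ((γ 1 0 : ℤ) : ℂ) := by
  ext z
  have h := hasDerivAt_denom_zpow (γ : GL (Fin 2) ℝ) 1 z
  simp only [zpow_one, Int.cast_one, one_mul, sub_self, zpow_zero, mul_one] at h
  have hev : (jfun γ ∘ ofComplex) =ᶠ[𝓝 (z : ℂ)] fun w => denom (γ : GL (Fin 2) ℝ) w := by
    filter_upwards [isOpen_upperHalfPlaneSet.mem_nhds z.im_pos] with w hw
    simp [jfun, Function.comp_apply, ofComplex_apply_of_im_pos hw]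
  simp only [normalizedDerivOfComplex]
  rw [(h.congr_of_eventuallyEq hev).deriv]
  simp

theorem slash_pred_eq (F : ℍ → ℂ) (k : ℤ) (γ : SL(2, ℤ)) :
    F ∣[k - 1] γ = jfun γ * (F ∣[k] γ) := by
  ext z
  have hz := denom_ne_zero (γ : GL (Fin 2) ℝ) z
  simp only [ModularForm.SL_slash_apply, Pi.mul_apply, jfun]
  rw [show -(k - 1) = -k + 1 by ring, zpow_add₀ hz, zpow_one]
  ring

/-- Bol's identity for the normalized derivative. -/
theorem bol (γ : SL(2, ℤ)) (m : ℕ) {F : ℍ → ℂ} (hF : MDiff F) :
    D^[m] (F ∣[(1 - (m : ℤ))] γ) = (D^[m] F) ∣[((m : ℤ) + 1)] γ := by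
  induction m with
  | zero => simp
  | succ m ih =>
    have hH : MDiff (F ∣[(1 - (m : ℤ))] γ) := hF.slash _ _
    have e1 : (1 - ((m + 1 : ℕ) : ℤ)) = (1 - (m : ℤ)) - 1 := by push_cast; ring
    rw [e1, slash_pred_eq, iterate_succ_mul_of_D_const (mdiff_jfun γ) hH _ (D_jfun γ) m, ih]
    rw [Function.iterate_succ_apply' (f := D) (n := m), ih,
      normalizedDerivOfComplex_SL_slash (mdiff_iterate hF m)]
    rw [Function.iterate_succ_apply' (f := D) (n := m) (x := F)]
    have e2 : (((m + 1 : ℕ) : ℤ) + 1) = ((m : ℤ) + 1 + 2) - 1 := by push_cast; ring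
    rw [e2, slash_pred_eq]
    ext z
    have hz := denom_ne_zero (γ : GL (Fin 2) ℝ) z
    simp only [Pi.add_apply, Pi.mul_apply, Pi.sub_apply, Pi.smul_apply, smul_eq_mul, jfun]
    push_cast
    field_simp
    ring

theorem eq_of_D_eq_zero {R : ℍ → ℂ} (hR : MDiff R) (h : D R = 0) (z w : ℍ) : R z = R w := by
  have hdiff : DifferentiableOn ℂ (R ∘ ofComplex) upperHalfPlaneSet :=
    UpperHalfPlane.mdifferentiable_iff.mp hR
  have hd : Set.EqOn (deriv (R ∘ ofComplex)) 0 upperHalfPlaneSet := by
    intro x hx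
    have h2 := congrFun h ⟨x, hx⟩
    have hne : (2 * (π : ℂ) * I)⁻¹ ≠ 0 := by
      simp [Real.pi_ne_zero]
    simp only [normalizedDerivOfComplex, Pi.zero_apply] at h2
    rcases mul_eq_zero.mp h2 with h1 | h1
    · exact absurd h1 hne
    · simpa using h1
  have := IsOpen.is_const_of_deriv_eq_zero isOpen_upperHalfPlaneSet
    (Convex.isPreconnected (convex_halfSpace_im_gt 0)) hdiff hd z.im_pos w.im_pos
  simpa using this

theorem mdiff_linear (a : ℂ) : MDiff (fun z : ℍ => a * (z : ℂ)) := by
  rw [UpperHalfPlane.mdifferentiable_iff]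
  have : DifferentiableOn ℂ (fun w : ℂ => a * w) upperHalfPlaneSet :=
    (differentiable_id.const_mul a).differentiableOn
  refine this.congr ?_
  intro w hw
  simp [Function.comp_apply, ofComplex_apply_of_im_pos hw]

theorem D_linear (a : ℂ) : D (fun z : ℍ => a * (z : ℂ)) = fun _ => (2 * π * I)⁻¹ * a := by
  ext z
  have hev : ((fun z : ℍ => a * (z : ℂ)) ∘ ofComplex) =ᶠ[𝓝 (z : ℂ)] fun w => a * w := by
    filter_upwards [isOpen_upperHalfPlaneSet.mem_nhds z.im_pos] with w hw
    simp [Function.comp_apply, ofComplex_apply_of_im_pos hw]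
  have h : HasDerivAt (fun w : ℂ => a * w) a (z : ℂ) := by
    simpa using (hasDerivAt_id (z : ℂ)).const_mul a
  simp only [normalizedDerivOfComplex]
  rw [(h.congr_of_eventuallyEq hev).deriv]

theorem exists_eq_linear_of_D_const {R : ℍ → ℂ} (hR : MDiff R) (c : ℂ) (h : D R = fun _ => c) :
    ∃ b : ℂ, ∀ z : ℍ, R z = 2 * π * I * c * (z : ℂ) + b := by
  have hne : (2 * (π : ℂ) * I) ≠ 0 := by simp [Real.pi_ne_zero]
  set L : ℍ → ℂ := fun z : ℍ => (2 * π * I * c) * (z : ℂ) with hL
  have hLd : MDiff L := mdiff_linear _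
  have h0 : D (R - L) = 0 := by
    rw [normalizedDerivOfComplex_sub R L hR hLd, h, D_linear]
    ext z
    simp only [Pi.sub_apply, Pi.zero_apply]
    field_simp
    ring
  refine ⟨R UpperHalfPlane.I - L UpperHalfPlane.I, fun z => ?_⟩
  have := eq_of_D_eq_zero (hR.sub hLd) h0 z UpperHalfPlane.I
  simp only [Pi.sub_apply] at this
  have e : R z = L z + (R UpperHalfPlane.I - L UpperHalfPlane.I) := by
    rw [← this]; ring
  rw [e]

theorem D_periodic {R : ℍ → ℂ} {h : ℝ} (hper : ∀ z : ℍ, R (h +ᵥ z) = R z) (z : ℍ) :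
    D R (h +ᵥ z) = D R z := by
  simp only [normalizedDerivOfComplex]
  congr 1
  have hev : (R ∘ ofComplex) =ᶠ[𝓝 (((h +ᵥ z : ℍ)) : ℂ)] fun w => (R ∘ ofComplex) (w - (h : ℂ)) := by
    have hmem : (((h +ᵥ z : ℍ)) : ℂ) ∈ {w : ℂ | 0 < (w - (h : ℂ)).im ∧ 0 < w.im} := by
      constructor
      · simpa using z.im_pos
      · exact (h +ᵥ z).im_pos
    have hopen : IsOpen {w : ℂ | 0 < (w - (h : ℂ)).im ∧ 0 < w.im} := by
      apply IsOpen.and
      · exact isOpen_lt continuous_const (Complex.continuous_im.comp (continuous_id.sub continuous_const))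
      · exact isOpen_lt continuous_const Complex.continuous_im
    filter_upwards [hopen.mem_nhds hmem] with w hw
    obtain ⟨hw1, hw2⟩ := hw
    simp only [Function.comp_apply, ofComplex_apply_of_im_pos hw1, ofComplex_apply_of_im_pos hw2]
    rw [← hper ⟨w - (h : ℂ), hw1⟩]
    congr 1
    ext
    simp
  rw [hev.deriv_eq, deriv_comp_sub_const]
  congr 1
  simp

/-- A holomorphic periodic function on the upper half plane whose `m`-th derivative vanishes is
constant. -/
theorem const_of_periodic_of_iterate_D_eq_zero {h : ℝ} (hh : h ≠ 0) (m : ℕ) {R : ℍ → ℂ}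
    (hR : MDiff R) (hper : ∀ z : ℍ, R (h +ᵥ z) = R z) (hD : D^[m] R = 0) :
    ∃ b : ℂ, ∀ z : ℍ, R z = b := by
  induction m generalizing R with
  | zero =>
    refine ⟨0, fun z => ?_⟩
    simpa using congrFun hD z
  | succ m ih =>
    rw [Function.iterate_succ_apply] at hD
    obtain ⟨c, hc⟩ := ih (normalizedDerivOfComplex_mdifferentiable hR) (D_periodic hper) hD
    obtain ⟨b, hb⟩ := exists_eq_linear_of_D_const hR c (funext hc)
    have h1 := hper UpperHalfPlane.I
    rw [hb, hb] at h1
    have hne : (2 * (π : ℂ) * I) ≠ 0 := by simp [Real.pi_ne_zero]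
    have hc0 : c = 0 := by
      have h2 : 2 * (π : ℂ) * I * c * (h : ℂ) = 0 := by
        have : (((h +ᵥ UpperHalfPlane.I : ℍ)) : ℂ) = (h : ℂ) + ((UpperHalfPlane.I : ℍ) : ℂ) := by
          simp
        rw [this] at h1
        linear_combination h1
      have hhc : (h : ℂ) ≠ 0 := by exact_mod_cast hh
      rcases mul_eq_zero.mp h2 with h3 | h3
      · rcases mul_eq_zero.mp h3 with h4 | h4
        · exact absurd h4 hne
        · exact h4
      · exact absurd h3 hhc
    refine ⟨b, fun z => ?_⟩
    rw [hb, hc0]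
    simp

end

end Fermat.Agent.S22.Alt88.InjBol
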