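import Mathlib

open UpperHalfPlane hiding I
open Real Complex Filter Function
open scoped Manifold MatrixGroups ModularForm Topology

namespace Fermat.Agent.S22.Alt88.InjPrim

noncomputable section

local notation "𝕢" => Periodic.qParam

/-- Existence of a holomorphic periodic primitive vanishing at infinity. -/
theorem exists_prim {h : ℝ} (hh : 0 < h) {φ : ℍ → ℂ} (hol : MDiff φ)
    (hper : Function.Periodic (φ ∘ ofComplex) h) (h0 : IsZeroAtImInfty φ) :
    ∃ Φ : ℍ → ℂ, MDiff Φ ∧ Function.Periodic (Φ ∘ ofComplex) h ∧ IsZeroAtImInfty Φ ∧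
      ∀ z : ℍ, HasDerivAt (Φ ∘ ofComplex) (φ z) z := by
  have hbdd : IsBoundedAtImInfty φ := h0.boundedAtFilter
  set c := cuspFunction h φ with hc
  have hcd : DifferentiableOn ℂ c (Metric.ball 0 1) :=
    differentiableOn_cuspFunction_ball hh hper hol hbdd
  have hc0 : c 0 = 0 := h0.cuspFunction_apply_zero hh
  have hball : Metric.ball (0 : ℂ) 1 ∈ 𝓝 (0 : ℂ) := Metric.ball_mem_nhds 0 one_pos
  have hdd : DifferentiableOn ℂ (dslope c 0) (Metric.ball 0 1) :=
    (Complex.differentiableOn_dslope hball).mpr hcd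
  obtain ⟨C, hC0, hC⟩ := hdd.isExactOn_ball.with_val_at 0 0
  have hqd : ∀ q : ℂ, q * dslope c 0 q = c q := by
    intro q
    have := sub_smul_dslope c 0 q
    simpa [hc0] using this
  set a : ℂ := (h : ℂ) / (2 * π * I) with ha
  have h2pi : (2 * (π : ℂ) * I) ≠ 0 := by simp [Real.pi_ne_zero]
  have hhc : (h : ℂ) ≠ 0 := by exact_mod_cast hh.ne'
  have hq_lt : ∀ z : ℍ, 𝕢 h z ∈ Metric.ball (0 : ℂ) 1 := by
    intro z
    simpa using Periodic.norm_qParam_lt_one hh z.im_pos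
  have hq_lt' : ∀ w : ℂ, 0 < w.im → 𝕢 h w ∈ Metric.ball (0 : ℂ) 1 := by
    intro w hw
    simpa using Periodic.norm_qParam_lt_one hh hw
  set Φ : ℍ → ℂ := fun z => a * C (𝕢 h z) with hΦ
  have hderiv : ∀ z : ℍ, HasDerivAt (Φ ∘ ofComplex) (φ z) z := by
    intro z
    have hqd' : HasDerivAt (𝕢 h) (𝕢 h z * (2 * π * I / h)) (z : ℂ) := by
      have : HasDerivAt (fun w : ℂ => 2 * π * I * w / h) (2 * π * I / h) (z : ℂ) := by
        simpa using ((hasDerivAt_id (z : ℂ)).const_mul (2 * π * I)).div_const (h : ℂ)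
      exact this.cexp
    have hC' := hC (𝕢 h z) (hq_lt z)
    have hcomp : HasDerivAt (fun w : ℂ => a * C (𝕢 h w))
        (a * (dslope c 0 (𝕢 h z) * (𝕢 h z * (2 * π * I / h)))) (z : ℂ) :=
      (hC'.comp (z : ℂ) hqd').const_mul a
    have hval : a * (dslope c 0 (𝕢 h z) * (𝕢 h z * (2 * π * I / h))) = φ z := by
      have e1 : c (𝕢 h z) = φ z := eq_cuspFunction z hh.ne' hper
      rw [← e1, ← hqd (𝕢 h z), ha]
      field_simp
    rw [hval] at hcomp
    refine hcomp.congr_of_eventuallyEq ?_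
    filter_upwards [isOpen_upperHalfPlaneSet.mem_nhds z.im_pos] with w hw
    simp [hΦ, Function.comp_apply, ofComplex_apply_of_im_pos hw]
  refine ⟨Φ, ?_, ?_, ?_, hderiv⟩
  · intro z
    exact UpperHalfPlane.mdifferentiableAt_iff.mpr (hderiv z).differentiableAt
  · intro w
    simp only [hΦ, Function.comp_apply]
    by_cases hw : 0 < w.im
    · have hw' : 0 < (w + (h : ℂ)).im := by simpa using hw
      rw [ofComplex_apply_of_im_pos hw, ofComplex_apply_of_im_pos hw']
      have : 𝕢 h (w + (h : ℂ)) = 𝕢 h w := by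
        simp only [Periodic.qParam]
        rw [show 2 * (π : ℂ) * I * (w + h) / h = 2 * π * I * w / h + 2 * π * I by field_simp]
        exact Complex.exp_periodic _
      simp only [this]
    · have hw' : ¬ 0 < (w + (h : ℂ)).im := by simpa using hw
      rw [ofComplex_apply_of_im_nonpos (not_lt.mp hw), ofComplex_apply_of_im_nonpos (not_lt.mp hw')]
  · have hCt : Tendsto C (𝓝 0) (𝓝 0) := by
      have := (hC 0 (Metric.mem_ball_self one_pos)).continuousAt.tendsto
      rwa [hC0] at this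
    have hq0 : Tendsto (fun τ : ℍ => 𝕢 h τ) atImInfty (𝓝 0) := qParam_tendsto_atImInfty hh
    have := (hCt.comp hq0).const_mul a
    simpa [IsZeroAtImInfty, ZeroAtFilter, hΦ] using this

/-- the type of holomorphic `h`-periodic functions vanishing at infinity -/
def PZ (h : ℝ) : Type := {ψ : ℍ → ℂ // MDiff ψ ∧ Function.Periodic (ψ ∘ ofComplex) h ∧ IsZeroAtImInfty ψ}

/-- a chosen primitive -/
def primStep {h : ℝ} (hh : 0 < h) (ψ : PZ h) : PZ h :=
  ⟨Classical.choose (exists_prim hh ψ.2.1 ψ.2.2.1 ψ.2.2.2),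
    (Classical.choose_spec (exists_prim hh ψ.2.1 ψ.2.2.1 ψ.2.2.2)).1,
    (Classical.choose_spec (exists_prim hh ψ.2.1 ψ.2.2.1 ψ.2.2.2)).2.1,
    (Classical.choose_spec (exists_prim hh ψ.2.1 ψ.2.2.1 ψ.2.2.2)).2.2.1⟩

theorem primStep_hasDerivAt {h : ℝ} (hh : 0 < h) (ψ : PZ h) (z : ℍ) :
    HasDerivAt ((primStep hh ψ).1 ∘ ofComplex) (ψ.1 z) z :=
  (Classical.choose_spec (exists_prim hh ψ.2.1 ψ.2.2.1 ψ.2.2.2)).2.2.2 z

/-- Existence of a chain of iterated holomorphic periodic primitives vanishing at infinity. -/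
theorem exists_iterated_prim {h : ℝ} (hh : 0 < h) {φ : ℍ → ℂ} (hol : MDiff φ)
    (hper : Function.Periodic (φ ∘ ofComplex) h) (h0 : IsZeroAtImInfty φ) :
    ∃ Ψ : ℕ → ℍ → ℂ, Ψ 0 = φ ∧
      (∀ j, MDiff (Ψ j) ∧ Function.Periodic (Ψ j ∘ ofComplex) h ∧ IsZeroAtImInfty (Ψ j)) ∧
      ∀ j (z : ℍ), HasDerivAt (Ψ (j + 1) ∘ ofComplex) (Ψ j z) z := by
  let start : PZ h := ⟨φ, hol, hper, h0⟩
  refine ⟨fun j => ((primStep hh)^[j] start).1, rfl, fun j => ((primStep hh)^[j] start).2, ?_⟩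
  intro j z
  simp only [Function.iterate_succ_apply']
  exact primStep_hasDerivAt hh _ z

end

end Fermat.Agent.S22.Alt88.InjPrim
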