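import Mathlib
import Fermat.Prelude.Thm_Subgroup_IsArithmetic_exists_nat_mem_strictPeriods_conj
import Fermat.Agent.S22.Alt88.InjBol
import Fermat.Agent.S22.Alt88.InjPrim

open UpperHalfPlane hiding I
open Real Complex Filter Function
open scoped Manifold MatrixGroups ModularForm Topology Pointwise
open Derivative

namespace Fermat.Agent.S22.Alt88.InjCore

open Fermat.Agent.S22.Alt88.InjBol Fermat.Agent.S22.Alt88.InjPrim

noncomputable section

/-- the constant relating `deriv` and the normalized derivative -/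
def aC : ℂ := (2 * π * I)⁻¹

theorem aC_ne_zero : aC ≠ 0 := by
  simp [aC, Real.pi_ne_zero]

theorem mdiff_of_hasDerivAt {Φ : ℍ → ℂ} {φ : ℍ → ℂ}
    (hd : ∀ z : ℍ, HasDerivAt (Φ ∘ ofComplex) (φ z) z) : MDiff Φ := fun z =>
  UpperHalfPlane.mdifferentiableAt_iff.mpr (hd z).differentiableAt

theorem D_of_hasDerivAt {Φ : ℍ → ℂ} {φ : ℍ → ℂ}
    (hd : ∀ z : ℍ, HasDerivAt (Φ ∘ ofComplex) (φ z) z) : D Φ = aC • φ := by
  ext z
  simp [normalizedDerivOfComplex, (hd z).deriv, aC]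

/-- iterated normalized derivative along a chain of primitives -/
theorem iterate_D_chain {Φ : ℕ → ℍ → ℂ} (hΦ : ∀ j, MDiff (Φ j))
    (hd : ∀ j (z : ℍ), HasDerivAt (Φ (j + 1) ∘ ofComplex) (Φ j z) z) (m j : ℕ) :
    D^[m] (Φ (j + m)) = aC ^ m • Φ j := by
  induction m generalizing j with
  | zero => simp
  | succ m ih =>
    rw [Function.iterate_succ_apply, ← add_assoc, D_of_hasDerivAt (hd (j + m)),
      iterate_smul _ (hΦ _), ih, smul_smul, pow_succ']

theorem iterate_D_zero (m : ℕ) : D^[m] (0 : ℍ → ℂ) = 0 := by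
  have h := iterate_smul (0 : ℂ) (F := (0 : ℍ → ℂ)) (by
    intro z; exact mdifferentiableAt_const) m
  simpa using h

theorem iterate_D_const (c : ℂ) (m : ℕ) : D^[m + 1] (fun _ : ℍ => c) = 0 := by
  rw [Function.iterate_succ_apply, normalizedDerivOfComplex_const, iterate_D_zero]

theorem vadd_of_periodic {R : ℍ → ℂ} {h : ℝ} (hper : Function.Periodic (R ∘ ofComplex) (h : ℂ))
    (z : ℍ) : R (h +ᵥ z) = R z := by
  have := hper (z : ℂ)
  simp only [Function.comp_apply, ofComplex_apply] at this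
  rw [← this]
  congr 1
  have hpos : 0 < ((z : ℂ) + (h : ℂ)).im := by simpa using z.im_pos
  rw [ofComplex_apply_of_im_pos hpos]
  ext
  simp [add_comm]

/-- boundedness at infinity of the slash of an invariant iterated primitive -/
theorem isBoundedAtImInfty_slash_of_chain {Γ : Subgroup (GL (Fin 2) ℝ)} [Γ.IsArithmetic] (n : ℕ)
    (f : CuspForm Γ ((n : ℤ) + 2)) (Φ : ℕ → ℍ → ℂ) (h0 : Φ 0 = f)
    (hd : ∀ j (z : ℍ), HasDerivAt (Φ (j + 1) ∘ ofComplex) (Φ j z) z)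
    (hinv : ∀ γ ∈ Γ, Φ (n + 1) ∣[-(n : ℤ)] γ = Φ (n + 1)) (δ : SL(2, ℤ)) :
    IsBoundedAtImInfty (Φ (n + 1) ∣[-(n : ℤ)] δ) := by
  have hΦ : ∀ j, MDiff (Φ j) := by
    intro j
    cases j with
    | zero => rw [h0]; exact f.holo'
    | succ j => exact mdiff_of_hasDerivAt (hd j)
  obtain ⟨M, hMpos, hM⟩ := Subgroup.IsArithmetic.exists_nat_mem_strictPeriods_conj Γ
  have hMδ := hM δ⁻¹
  have hMr : (0 : ℝ) < (M : ℝ) := by exact_mod_cast hMpos
  -- the invariant function as a slash invariant form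
  let gS : SlashInvariantForm Γ (-(n : ℤ)) :=
    { toFun := Φ (n + 1)
      slash_action_eq' := hinv }
  let GS := SlashInvariantForm.translate gS (Matrix.SpecialLinearGroup.mapGL ℝ δ)
  let fδ := CuspForm.translate f (Matrix.SpecialLinearGroup.mapGL ℝ δ)
  have hMδ' : (M : ℝ) ∈ (ConjAct.toConjAct (Matrix.SpecialLinearGroup.mapGL ℝ δ)⁻¹ • Γ).strictPeriods := by
    simpa [map_inv] using hMδ
  have hGper : Function.Periodic (⇑GS ∘ ofComplex) ((M : ℝ) : ℂ) :=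
    SlashInvariantFormClass.periodic_comp_ofComplex GS hMδ'
  have hfper : Function.Periodic (⇑fδ ∘ ofComplex) ((M : ℝ) : ℂ) :=
    SlashInvariantFormClass.periodic_comp_ofComplex fδ hMδ'
  have hGcoe : (⇑GS : ℍ → ℂ) = Φ (n + 1) ∣[-(n : ℤ)] δ := rfl
  have hfcoe : (⇑fδ : ℍ → ℂ) = (⇑f : ℍ → ℂ) ∣[(n : ℤ) + 2] δ := rfl
  have hfzero : IsZeroAtImInfty (⇑fδ : ℍ → ℂ) := by
    rw [hfcoe]; exact CuspFormClass.zero_at_infty_slash f δ
  have hfhol : MDiff ((⇑f : ℍ → ℂ) ∣[(n : ℤ) + 2] δ) := f.holo'.slash _ _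
  obtain ⟨Ψ, hΨ0, hΨ, hΨd⟩ := exists_iterated_prim (φ := (⇑f : ℍ → ℂ) ∣[(n : ℤ) + 2] δ) hMr hfhol
    (hfcoe ▸ hfper) (hfcoe ▸ hfzero)
  have hGmd : MDiff (Φ (n + 1) ∣[-(n : ℤ)] δ) := (hΦ (n + 1)).slash _ _
  -- the difference has vanishing iterated derivative
  have hDG : D^[n + 1] (Φ (n + 1) ∣[-(n : ℤ)] δ) = aC ^ (n + 1) • ((⇑f : ℍ → ℂ) ∣[(n : ℤ) + 2] δ) := by
    have hb := bol δ (n + 1) (hΦ (n + 1))
    have e1 : (1 - ((n + 1 : ℕ) : ℤ)) = -(n : ℤ) := by push_cast; ring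
    have e2 : (((n + 1 : ℕ) : ℤ) + 1) = (n : ℤ) + 2 := by push_cast; ring
    rw [e1, e2] at hb
    rw [hb]
    have hc := iterate_D_chain hΦ hd (n + 1) 0
    rw [zero_add] at hc
    rw [hc, h0, ModularForm.SL_smul_slash]
  have hDΨ : D^[n + 1] (Ψ (n + 1)) = aC ^ (n + 1) • ((⇑f : ℍ → ℂ) ∣[(n : ℤ) + 2] δ) := by
    have hc := iterate_D_chain (fun j => (hΨ j).1) hΨd (n + 1) 0
    rw [zero_add] at hc
    rw [hc, hΨ0]
  have hRD : D^[n + 1] (Φ (n + 1) ∣[-(n : ℤ)] δ - Ψ (n + 1)) = 0 := by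
    rw [iterate_sub hGmd (hΨ (n + 1)).1, hDG, hDΨ, sub_self]
  have hRper : ∀ z : ℍ, (Φ (n + 1) ∣[-(n : ℤ)] δ - Ψ (n + 1)) ((M : ℝ) +ᵥ z) =
      (Φ (n + 1) ∣[-(n : ℤ)] δ - Ψ (n + 1)) z := by
    intro z
    have h1 := vadd_of_periodic (R := Φ (n + 1) ∣[-(n : ℤ)] δ) (h := (M : ℝ)) (hGcoe ▸ hGper) z
    have h2 := vadd_of_periodic (R := Ψ (n + 1)) (h := (M : ℝ)) (hΨ (n + 1)).2.1 z
    simp only [Pi.sub_apply, h1, h2]
  obtain ⟨b, hb⟩ := const_of_periodic_of_iterate_D_eq_zero hMr.ne' (n + 1)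
    (hGmd.sub (hΨ (n + 1)).1) hRper hRD
  have hGeq : (Φ (n + 1) ∣[-(n : ℤ)] δ) = Ψ (n + 1) + fun _ => b := by
    ext z
    have := hb z
    simp only [Pi.sub_apply] at this
    simp only [Pi.add_apply]
    rw [← this]; ring
  rw [hGeq]
  exact (hΨ (n + 1)).2.2.boundedAtFilter.add (Filter.const_boundedAtFilter _ b)

/-- **Eichler-Shimura injectivity, abstract form.** If the `(n+1)`-fold primitive `Φ (n+1)` of a
cusp form `f` of weight `n + 2` is invariant under the weight `-n` action of `Γ`, then `f = 0`. -/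
theorem eq_zero_of_chain {Γ : Subgroup (GL (Fin 2) ℝ)} [Γ.IsArithmetic] (n : ℕ)
    (f : CuspForm Γ ((n : ℤ) + 2)) (Φ : ℕ → ℍ → ℂ) (h0 : Φ 0 = f)
    (hd : ∀ j (z : ℍ), HasDerivAt (Φ (j + 1) ∘ ofComplex) (Φ j z) z)
    (hinv : ∀ γ ∈ Γ, Φ (n + 1) ∣[-(n : ℤ)] γ = Φ (n + 1)) : f = 0 := by
  have hΦ : ∀ j, MDiff (Φ j) := by
    intro j
    cases j with
    | zero => rw [h0]; exact f.holo'
    | succ j => exact mdiff_of_hasDerivAt (hd j)
  -- the invariant primitive as a modular form of weight `-n`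
  let gM : ModularForm Γ (-(n : ℤ)) :=
    { toFun := Φ (n + 1)
      slash_action_eq' := hinv
      holo' := hΦ (n + 1)
      bdd_at_cusps' := by
        intro c hc
        have hc' := (Subgroup.IsArithmetic.isCusp_iff_isCusp_SL2Z Γ).mp hc
        rw [OnePoint.isBoundedAt_iff_forall_SL2Z hc']
        intro δ _
        exact isBoundedAtImInfty_slash_of_chain n f Φ h0 hd hinv δ }
  have hgcoe : (⇑gM : ℍ → ℂ) = Φ (n + 1) := rfl
  -- `Φ (n+1)` is constant
  have hconst : ∃ c : ℂ, Φ (n + 1) = fun _ => c := by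
    rcases Nat.eq_zero_or_pos n with hn | hn
    · subst hn
      let gM0 : ModularForm Γ 0 := ModularForm.mcast (by simp) gM
      obtain ⟨c, hc⟩ := ModularForm.eq_const_of_weight_zero gM0
      exact ⟨c, hc⟩
    · have hneg : -(n : ℤ) < 0 := by
        have : (0 : ℤ) < n := by exact_mod_cast hn
        omega
      have := ModularForm.isZero_of_neg_weight hneg gM
      refine ⟨0, ?_⟩
      rw [← hgcoe, this]
      rfl
  obtain ⟨c, hc⟩ := hconst
  have h1 := iterate_D_chain hΦ hd (n + 1) 0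
  rw [zero_add, hc, iterate_D_const, h0] at h1
  have h2 : (⇑f : ℍ → ℂ) = 0 := by
    have hne : aC ^ (n + 1) ≠ 0 := pow_ne_zero _ aC_ne_zero
    ext z
    have := congrFun h1 z
    simp only [Pi.zero_apply, Pi.smul_apply, smul_eq_mul] at this
    rcases mul_eq_zero.mp this.symm with h3 | h3
    · exact absurd h3 hne
    · simpa using h3
  exact DFunLike.coe_injective h2

end

end Fermat.Agent.S22.Alt88.InjCore
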