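import Mathlib
import Fermat.Agent.S22.Alt88.Prim
import Fermat.Agent.S22.Alt88.PolyAct
import Fermat.Agent.S22.Alt88.CuspNice
import Fermat.Agent.S22.Alt88.InjCore

/-!
Eichler-Shimura injectivity in the form needed for the period lattice: if the `(n+1)`-fold
primitive of a cusp form of weight `n + 2` on `Gamma0 N` is invariant under the weight `-n`
action, then the form vanishes.
-/

set_option autoImplicit false

namespace Fermat.Agent.S22.Alt88

open Complex Filter Function Topology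
open UpperHalfPlane hiding I
open scoped Real MatrixGroups ModularForm Manifold

namespace Inject

/-- the chain `f, iprim 0, iprim 1, ...` as functions on the upper half plane -/
noncomputable def chainOf (φ : ℂ → ℂ) (f : ℍ → ℂ) : ℕ → ℍ → ℂ
  | 0 => f
  | (j + 1) => fun z => iprim 1 φ j (z : ℂ)

theorem coe_smul_eq_mob (g : SL(2, ℤ)) (z : ℍ) :
    ((g • z : ℍ) : ℂ) = mob (g : M2) (z : ℂ) := by
  rw [UpperHalfPlane.coe_specialLinearGroup_apply]
  simp [mob, num, den]

theorem denom_eq_den (g : SL(2, ℤ)) (z : ℍ) :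
    denom (g : GL (Fin 2) ℝ) (z : ℂ) = den (g : M2) (z : ℂ) := by
  simp [denom, den]

end Inject

open Inject in
theorem eq_zero_of_invariant_iprim {N : ℕ} [NeZero N] {k : ℤ} (hk : 2 ≤ k)
    (f : CuspForm (CongruenceSubgroup.Gamma0 N) k)
    (hinv : ∀ g : SL(2, ℤ), g ∈ CongruenceSubgroup.Gamma0 N → ∀ z : ℂ, 0 < z.im →
      iprim 1 (⇑f ∘ ofComplex) (k - 2).toNat (mob (g : M2) z) * den (g : M2) z ^ (k - 2).toNat =
        iprim 1 (⇑f ∘ ofComplex) (k - 2).toNat z) : f = 0 := by
  obtain ⟨n, rfl⟩ : ∃ n : ℕ, k = (n : ℤ) + 2 := ⟨(k - 2).toNat, by omega⟩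
  have hn : ((n : ℤ) + 2 - 2).toNat = n := by simp
  rw [hn] at hinv
  set φ : ℂ → ℂ := ⇑f ∘ ofComplex with hφdef
  have h1 : (1 : ℝ) ∈ (CongruenceSubgroup.Gamma0 N : Subgroup (GL (Fin 2) ℝ)).strictPeriods := by
    simp
  have hφ : Nice 1 φ := nice_of_cuspForm f one_pos h1
  refine InjCore.eq_zero_of_chain n f (chainOf φ f) rfl ?_ ?_
  · intro j z
    have hev : ∀ ψ : ℂ → ℂ, ((fun w : ℍ => ψ (w : ℂ)) ∘ ofComplex) =ᶠ[𝓝 (z : ℂ)] ψ := by
      intro ψ
      filter_upwards [isOpen_upperHalfPlaneSet.mem_nhds z.im_pos] with w hw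
      simp [Function.comp_apply, ofComplex_apply_of_im_pos hw]
    cases j with
    | zero =>
      have hd := iprim_zero_hasDerivAt one_pos hφ (z := (z : ℂ)) z.im_pos
      have hval : φ (z : ℂ) = f z := by simp [hφdef]
      rw [hval] at hd
      exact hd.congr_of_eventuallyEq (hev _)
    | succ j =>
      have hd := iprim_succ_hasDerivAt one_pos hφ j (z := (z : ℂ)) z.im_pos
      exact hd.congr_of_eventuallyEq (hev _)
  · intro γ hγ
    obtain ⟨g, hg, rfl⟩ := Subgroup.mem_map.mp hγ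
    ext z
    have := hinv g hg (z : ℂ) z.im_pos
    change ((chainOf φ f (n + 1)) ∣[-(n : ℤ)] g) z = _
    rw [ModularForm.SL_slash_apply]
    simp only [chainOf, neg_neg, zpow_natCast]
    rw [coe_smul_eq_mob, ← this, denom_eq_den g z]

end Fermat.Agent.S22.Alt88
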