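import Mathlib
import Fermat.Agent.S22.Alt88.Glue
import Fermat.Agent.S22.Alt88.Period
import Fermat.Agent.S22.Alt88.Hecke
import Fermat.Agent.S22.Alt88.Inject

/-!
Backup assembly: for `2 ≤ k` the Hecke algebra of weight `k` and level `Γ₀(N)` is a finite
`ℤ`-module (period lattice route).
-/

set_option autoImplicit false

namespace Fermat.Agent.S22.Alt88

theorem finite_heckeAlgebra_of_two_le' (N : ℕ) [NeZero N] {k : ℤ} (hk : 2 ≤ k) (S : Set ℕ) :
    Module.Finite ℤ (CuspForm.heckeAlgebra N k S) :=
  heckeAlgebra_finite_of_stable_lattice N k S (periodLattice k N) (periodLattice_fg hk)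
    (fun f hf => eq_zero_of_invariant_iprim hk f
      (fun _ hg _ hz => iprim_invariant_of_forall hk f hf hg hz))
    (fun _ hl hlN => periodLattice_stable_T hk hl hlN)
    (fun _ hqN _ => periodLattice_stable_U hk hqN)

end Fermat.Agent.S22.Alt88
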